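/-
Programme TW (S56), brick C3-T4a (helper22), file 2: additive characters unramified outside `S`
factor through the Kummer extension generated by the `p`-th roots of a subgroup `E`.

`F ⊂ ℚ̄` finite over `ℚ`, unramified outside `S`, `ζ_p ∈ F`, `E ≤ Fˣ` a subgroup such that
every `x ∈ Fˣ` with `p ∣ ord_v x` for all `v ∤ S` is of the form `e * g ^ p` with `e ∈ E`
(`hV`; for `E` the `S`-units this says that the `S`-class group has no `p`-torsion, e.g. is trivial).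

* `kummerFieldOf F p E = F(E^{1/p})`;
* `chi_eq_zero_of_mem_fixingSubgroup` : every `χ : Γ → ℤ/p`, additive on `Gal(ℚ̄/F)` and killing
  `Gal(ℚ̄/L) ∩ Gal(ℚ̄/F)` for some `L` unramified outside `S`, kills `Gal(ℚ̄/F(E^{1/p}))`;
* `map_eq_zero_of_mem_fixingSubgroup` : the same for maps into any `ZMod p`-module.
-/
import Mathlib
import Fermat.Agent.PT.GLOB.H1Finite15

set_option autoImplicit false
set_option linter.style.haveILetI false
set_option linter.unusedSectionVars false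

namespace Fermat.Agent.TW.TateKum22.KummerKill

open NumberField IsDedekindDomain
open Fermat.Agent.PT.GLOB.SelmerFinite15 Fermat.Agent.PT.GLOB.H1Finite15

local notation "Qbar" => AlgebraicClosure ℚ
local notation "Γ" => (AlgebraicClosure ℚ ≃ₐ[ℚ] AlgebraicClosure ℚ)

variable (F : IntermediateField ℚ Qbar) (p : ℕ) (E : Subgroup Fˣ)

/-- The `p`-th roots in `ℚ̄` of the elements of `E`. -/
def rootsOfSub : Set Qbar := {x | ∃ e ∈ E, x ^ p = (((e : Fˣ) : F) : Qbar)}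

/-- The field `F(E^{1/p})`. -/
noncomputable def kummerFieldOf : IntermediateField ℚ Qbar :=
  F ⊔ IntermediateField.adjoin ℚ (rootsOfSub F p E)

theorem le_kummerFieldOf : F ≤ kummerFieldOf F p E := le_sup_left

theorem mem_kummerFieldOf_of_pow_eq {x : Qbar} {e : Fˣ} (he : e ∈ E)
    (hx : x ^ p = (((e : Fˣ) : F) : Qbar)) : x ∈ kummerFieldOf F p E :=
  (le_sup_right : IntermediateField.adjoin ℚ (rootsOfSub F p E) ≤ kummerFieldOf F p E)
    (IntermediateField.subset_adjoin ℚ _ ⟨e, he, hx⟩)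

theorem kummerLevel_le {Y : Finset Fˣ} (hY : ∀ y ∈ Y, y ∈ E) :
    kummerLevel F p Y ≤ kummerFieldOf F p E := by
  refine sup_le le_sup_left ?_
  rw [IntermediateField.adjoin_le_iff]
  rintro x ⟨y, hy, hx⟩
  exact mem_kummerFieldOf_of_pow_eq F p E (hY y hy) hx

variable {p} [FiniteDimensional ℚ F]

/-- A finite subset of `E` covering `selSub` modulo `p`-th powers. -/
theorem exists_finset_cover_sub (hp : 0 < p) (S : Finset Nat.Primes)
    (hV : ∀ x ∈ selSub (R := 𝓞 F) (K := F) (primesAboveS S F) p,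
      ∃ e ∈ E, ∃ g : Fˣ, x = e * g ^ p) :
    ∃ Y : Finset Fˣ, (∀ y ∈ Y, y ∈ E) ∧
      ∀ x ∈ selSub (R := 𝓞 F) (K := F) (primesAboveS S F) p,
        ∃ y ∈ Y, ∃ g : Fˣ, x = y * g ^ p := by
  classical
  obtain ⟨Y₀, hY₀⟩ := exists_finset_cover F (primesAboveS S F) (finite_primesAboveS S F) p hp
  -- for each `y₀` choose (if possible) `e ∈ E` with `y₀ ∈ e · (Fˣ)^p`
  let P : Fˣ → Prop := fun y₀ => ∃ e ∈ E, ∃ g : Fˣ, y₀ = e * g ^ p
  let r : Fˣ → Fˣ := fun y₀ => if h : P y₀ then h.choose else 1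
  have hr : ∀ y₀, r y₀ ∈ E := by
    intro y₀
    by_cases h : P y₀
    · simp only [r, dif_pos h]; exact h.choose_spec.1
    · simp only [r, dif_neg h]; exact E.one_mem
  refine ⟨Y₀.image r, ?_, ?_⟩
  · intro y hy
    obtain ⟨y₀, -, rfl⟩ := Finset.mem_image.mp hy
    exact hr y₀
  · intro x hx
    obtain ⟨y₀, hy₀, g, hg⟩ := hY₀ x hx
    -- `y₀ = x * g⁻¹ ^ p ∈ selSub`
    have hy₀sel : y₀ ∈ selSub (R := 𝓞 F) (K := F) (primesAboveS S F) p := by
      have : y₀ = x * (g⁻¹) ^ p := by rw [hg, inv_pow, mul_inv_cancel_right]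
      rw [this]
      exact mul_mem hx (pow_mem_selSub _ p g⁻¹)
    have hP : P y₀ := hV y₀ hy₀sel
    obtain ⟨-, g₀, hg₀⟩ := hP.choose_spec
    refine ⟨r y₀, Finset.mem_image_of_mem r hy₀, g₀ * g, ?_⟩
    have hr' : r y₀ = hP.choose := dif_pos hP
    rw [hr', mul_pow, ← mul_assoc, ← hg₀, hg]

/-- **Characters unramified outside `S` factor through `F(E^{1/p})`.** -/
theorem chi_eq_zero_of_mem_fixingSubgroup (hp : p.Prime) (S : Finset Nat.Primes)
    (hF : F.IsUnramifiedOutside S) {ζ : Qbar} (hζ : IsPrimitiveRoot ζ p) (hζF : ζ ∈ F)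
    (hV : ∀ x ∈ selSub (R := 𝓞 F) (K := F) (primesAboveS S F) p,
      ∃ e ∈ E, ∃ g : Fˣ, x = e * g ^ p)
    (χ : Γ → ZMod p)
    (hadd : ∀ s ∈ F.fixingSubgroup, ∀ t ∈ F.fixingSubgroup, χ (s * t) = χ s + χ t)
    (hlev : ∃ L : IntermediateField ℚ Qbar, L.IsUnramifiedOutside S ∧
      ∀ s ∈ L.fixingSubgroup, s ∈ F.fixingSubgroup → χ s = 0)
    {s : Γ} (hs : s ∈ (kummerFieldOf F p E).fixingSubgroup) : χ s = 0 := by
  obtain ⟨Y, hYE, hY⟩ := exists_finset_cover_sub F E hp.pos S hV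
  obtain ⟨L₀, hL₀, hL₀0⟩ := hlev
  obtain ⟨L, hEL, hLgal, hL⟩ :=
    Fermat.Agent.PT.BR.UnramBridge13.exists_isGalois_isUnramifiedOutside (hL₀.sup hF)
  haveI := hL.1
  haveI := hLgal
  exact Fermat.Agent.PT.GLOB.H1Finite15.chi_eq_zero_of_mem_fixingSubgroup hp S F hζ hζF Y hY L
    (le_sup_right.trans hEL) hL χ hadd
    (fun t ht ht0 => hL₀0 t
      (IntermediateField.fixingSubgroup_antitone (le_sup_left.trans hEL) ht) ht0) s
    (IntermediateField.fixingSubgroup_antitone (kummerLevel_le F p E hYE) hs)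

/-- The same for maps into an arbitrary `ZMod p`-module. -/
theorem map_eq_zero_of_mem_fixingSubgroup (hp : p.Prime) (S : Finset Nat.Primes)
    (hF : F.IsUnramifiedOutside S) {ζ : Qbar} (hζ : IsPrimitiveRoot ζ p) (hζF : ζ ∈ F)
    (hV : ∀ x ∈ selSub (R := 𝓞 F) (K := F) (primesAboveS S F) p,
      ∃ e ∈ E, ∃ g : Fˣ, x = e * g ^ p)
    {W : Type*} [AddCommGroup W] [Module (ZMod p) W] (c : Γ → W)
    (hadd : ∀ s ∈ F.fixingSubgroup, ∀ t ∈ F.fixingSubgroup, c (s * t) = c s + c t)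
    (hlev : ∃ L : IntermediateField ℚ Qbar, L.IsUnramifiedOutside S ∧
      ∀ s ∈ L.fixingSubgroup, s ∈ F.fixingSubgroup → c s = 0)
    {s : Γ} (hs : s ∈ (kummerFieldOf F p E).fixingSubgroup) : c s = 0 := by
  haveI : Fact p.Prime := ⟨hp⟩
  rw [← Module.forall_dual_apply_eq_zero_iff (ZMod p)]
  intro φ
  obtain ⟨L, hL, hL0⟩ := hlev
  exact chi_eq_zero_of_mem_fixingSubgroup F E hp S hF hζ hζF hV (fun t => φ (c t))
    (fun a ha b hb => by rw [hadd a ha b hb, map_add])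
    ⟨L, hL, fun t ht ht0 => by rw [hL0 t ht ht0, map_zero]⟩ hs

end Fermat.Agent.TW.TateKum22.KummerKill
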