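/-
Programme TW (S56), brick C3-T4a (helper22), file 3: the Kummer symbol with values in `ZMod p`.

`ζ ∈ ℚ̄` a primitive `p`-th root of unity, `F ⊂ ℚ̄` a subfield containing `ζ`.  For
`s ∈ Gal(ℚ̄/F)` and `x ∈ ℚ̄ˣ` with `x ^ p ∈ F` there is a unique `k ∈ ZMod p` with
`s x = ζ ^ k * x`; this is `kum p ζ s x`.

* `kum_spec`, `kum_eq_iff`            : characterisation;
* `kum_mul_left`, `kum_mul_right`     : bi-additivity;
* `kum_eq_of_pow_eq`                  : `kum p ζ s x` only depends on `x ^ p`;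
* `kum_of_mem`                        : `kum p ζ s x = 0` for `x ∈ F`;
* `kum_conj`                          : `kum p ζ (g s g⁻¹) x = j * kum p ζ s (g⁻¹ x)` if `g ζ = ζ ^ j`;
* `mem_fixingSubgroup_kummerFieldOf`  : if `s ∈ Gal(ℚ̄/F)` and `kum p ζ s x = 0` for all `p`-th roots
  `x` of elements of `E`, then `s ∈ Gal(ℚ̄/F(E^{1/p}))`.
-/
import Mathlib
import Fermat.Agent.TW.TateKum22.KummerKill

set_option autoImplicit false
set_option linter.style.haveILetI false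
set_option linter.unusedSectionVars false

namespace Fermat.Agent.TW.TateKum22.Symbol

open Fermat.Agent.TW.TateKum22.KummerKill

local notation "Qbar" => AlgebraicClosure ℚ
local notation "Γ" => (AlgebraicClosure ℚ ≃ₐ[ℚ] AlgebraicClosure ℚ)

variable {p : ℕ} [hp : Fact p.Prime] (ζ : Qbar)

/-- `ζ ^ k` for `k : ZMod p`. -/
noncomputable def zpw (k : ZMod p) : Qbar := ζ ^ k.val

variable {ζ}

theorem zpw_zero : zpw ζ (0 : ZMod p) = 1 := by
  rw [zpw, ZMod.val_zero, pow_zero]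

theorem zpw_add (hζ : IsPrimitiveRoot ζ p) (a b : ZMod p) : zpw ζ (a + b) = zpw ζ a * zpw ζ b := by
  rw [zpw, zpw, zpw, ← pow_add, ZMod.val_add]
  exact (pow_eq_pow_mod _ hζ.pow_eq_one).symm

theorem zpw_mul (hζ : IsPrimitiveRoot ζ p) (a b : ZMod p) : zpw ζ (a * b) = (zpw ζ a) ^ b.val := by
  rw [zpw, zpw, ← pow_mul, ZMod.val_mul]
  exact (pow_eq_pow_mod _ hζ.pow_eq_one).symm

theorem zpw_injective (hζ : IsPrimitiveRoot ζ p) : Function.Injective (zpw (p := p) ζ) := by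
  intro a b h
  have := hζ.pow_inj (ZMod.val_lt a) (ZMod.val_lt b) h
  exact ZMod.val_injective p this

theorem zpw_ne_zero (hζ : IsPrimitiveRoot ζ p) (a : ZMod p) : zpw ζ a ≠ 0 :=
  pow_ne_zero _ (hζ.ne_zero hp.out.ne_zero)

theorem exists_zpw_eq (hζ : IsPrimitiveRoot ζ p) {ξ : Qbar} (hξ : ξ ^ p = 1) :
    ∃ k : ZMod p, zpw ζ k = ξ := by
  obtain ⟨i, hi, hi'⟩ := hζ.eq_pow_of_pow_eq_one hξ
  refine ⟨(i : ZMod p), ?_⟩
  rw [zpw, ZMod.val_natCast_of_lt hi, hi']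

theorem zpw_pow_eq_one (hζ : IsPrimitiveRoot ζ p) (k : ZMod p) : (zpw ζ k) ^ p = 1 := by
  rw [zpw, ← pow_mul, mul_comm, pow_mul, hζ.pow_eq_one, one_pow]

variable (p ζ) in
/-- The Kummer symbol: the `k` with `s x = ζ ^ k * x` (junk value `0` if there is none). -/
noncomputable def kum (s : Γ) (x : Qbar) : ZMod p :=
  open Classical in if h : ∃ k : ZMod p, s x = zpw ζ k * x then h.choose else 0

variable (F : IntermediateField ℚ Qbar)

theorem exists_smul_eq (hζ : IsPrimitiveRoot ζ p) {s : Γ} (hs : s ∈ F.fixingSubgroup)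
    {x : Qbar} (hx0 : x ≠ 0) (hxF : x ^ p ∈ F) : ∃ k : ZMod p, s x = zpw ζ k * x := by
  have h1 : (s x / x) ^ p = 1 := by
    rw [div_pow, ← map_pow, (IntermediateField.mem_fixingSubgroup_iff _ s).mp hs _ hxF,
      div_self (pow_ne_zero p hx0)]
  obtain ⟨k, hk⟩ := exists_zpw_eq hζ h1
  exact ⟨k, by rw [hk, div_mul_cancel₀ _ hx0]⟩

theorem kum_spec (hζ : IsPrimitiveRoot ζ p) {s : Γ} (hs : s ∈ F.fixingSubgroup)
    {x : Qbar} (hx0 : x ≠ 0) (hxF : x ^ p ∈ F) : s x = zpw ζ (kum p ζ s x) * x := by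
  have h := exists_smul_eq F hζ hs hx0 hxF
  rw [kum, dif_pos h]
  exact h.choose_spec

theorem kum_eq_iff (hζ : IsPrimitiveRoot ζ p) {s : Γ} (hs : s ∈ F.fixingSubgroup)
    {x : Qbar} (hx0 : x ≠ 0) (hxF : x ^ p ∈ F) (k : ZMod p) :
    kum p ζ s x = k ↔ s x = zpw ζ k * x := by
  constructor
  · rintro rfl; exact kum_spec F hζ hs hx0 hxF
  · intro h
    have h2 := kum_spec F hζ hs hx0 hxF
    rw [h] at h2
    exact (zpw_injective hζ (mul_right_cancel₀ hx0 h2)).symm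

theorem apply_zpw (hζF : ζ ∈ F) {s : Γ} (hs : s ∈ F.fixingSubgroup) (k : ZMod p) :
    s (zpw ζ k) = zpw ζ k := by
  rw [zpw, map_pow, (IntermediateField.mem_fixingSubgroup_iff _ s).mp hs _ hζF]

/-- Additivity in the Galois variable. -/
theorem kum_mul_left (hζ : IsPrimitiveRoot ζ p) (hζF : ζ ∈ F) {s t : Γ}
    (hs : s ∈ F.fixingSubgroup) (ht : t ∈ F.fixingSubgroup)
    {x : Qbar} (hx0 : x ≠ 0) (hxF : x ^ p ∈ F) :
    kum p ζ (s * t) x = kum p ζ s x + kum p ζ t x := by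
  rw [kum_eq_iff F hζ (mul_mem hs ht) hx0 hxF, AlgEquiv.mul_apply, kum_spec F hζ ht hx0 hxF,
    map_mul, apply_zpw F hζF hs, kum_spec F hζ hs hx0 hxF, zpw_add hζ]
  ring

/-- Additivity in the radical variable. -/
theorem kum_mul_right (hζ : IsPrimitiveRoot ζ p) {s : Γ} (hs : s ∈ F.fixingSubgroup)
    {x y : Qbar} (hx0 : x ≠ 0) (hxF : x ^ p ∈ F) (hy0 : y ≠ 0) (hyF : y ^ p ∈ F) :
    kum p ζ s (x * y) = kum p ζ s x + kum p ζ s y := by
  have hxyF : (x * y) ^ p ∈ F := by rw [mul_pow]; exact F.mul_mem hxF hyF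
  rw [kum_eq_iff F hζ hs (mul_ne_zero hx0 hy0) hxyF, map_mul, kum_spec F hζ hs hx0 hxF,
    kum_spec F hζ hs hy0 hyF, zpw_add hζ]
  ring

/-- The symbol vanishes on `F`. -/
theorem kum_of_mem (hζ : IsPrimitiveRoot ζ p) {s : Γ} (hs : s ∈ F.fixingSubgroup)
    {x : Qbar} (hx0 : x ≠ 0) (hxF : x ∈ F) : kum p ζ s x = 0 := by
  rw [kum_eq_iff F hζ hs hx0 (pow_mem hxF p), zpw_zero, one_mul]
  exact (IntermediateField.mem_fixingSubgroup_iff _ s).mp hs _ hxF

/-- The symbol only depends on `x ^ p`. -/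
theorem kum_eq_of_pow_eq (hζ : IsPrimitiveRoot ζ p) (hζF : ζ ∈ F) {s : Γ}
    (hs : s ∈ F.fixingSubgroup) {x y : Qbar} (hx0 : x ≠ 0) (hxF : x ^ p ∈ F)
    (hxy : y ^ p = x ^ p) : kum p ζ s y = kum p ζ s x := by
  have hy0 : y ≠ 0 := by
    rintro rfl
    rw [zero_pow hp.out.ne_zero] at hxy
    exact pow_ne_zero p hx0 hxy.symm
  have h1 : (y / x) ^ p = 1 := by rw [div_pow, hxy, div_self (pow_ne_zero p hx0)]
  obtain ⟨j, hj⟩ := exists_zpw_eq hζ h1
  have hyx : y = zpw ζ j * x := by rw [hj, div_mul_cancel₀ _ hx0]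
  have hjF : zpw ζ j ∈ F := pow_mem hζF _
  rw [hyx, kum_mul_right F hζ hs (zpw_ne_zero hζ j) (pow_mem hjF p) hx0 hxF,
    kum_of_mem F hζ hs (zpw_ne_zero hζ j) hjF, zero_add]

/-- Equivariance: `⟨g s g⁻¹, x⟩ = j · ⟨s, g⁻¹ x⟩` when `g ζ = ζ ^ j`. -/
theorem kum_conj (hζ : IsPrimitiveRoot ζ p) {s g : Γ}
    (hs : s ∈ F.fixingSubgroup) (hconj : g * s * g⁻¹ ∈ F.fixingSubgroup)
    {x : Qbar} (hx0 : x ≠ 0) (hxF : x ^ p ∈ F) (hgxF : (g⁻¹ x) ^ p ∈ F)
    {j : ZMod p} (hj : g ζ = zpw ζ j) :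
    kum p ζ (g * s * g⁻¹) x = j * kum p ζ s (g⁻¹ x) := by
  have hgx0 : g⁻¹ x ≠ 0 := by
    intro h
    apply hx0
    have := congrArg g h
    rwa [← AlgEquiv.mul_apply, mul_inv_cancel, AlgEquiv.one_apply, map_zero] at this
  rw [kum_eq_iff F hζ hconj hx0 hxF, AlgEquiv.mul_apply, AlgEquiv.mul_apply,
    kum_spec F hζ hs hgx0 hgxF, map_mul, ← AlgEquiv.mul_apply g g⁻¹, mul_inv_cancel,
    AlgEquiv.one_apply]
  congr 1
  rw [zpw, map_pow, hj, mul_comm, zpw_mul hζ, zpw, zpw, ← pow_mul, ← pow_mul, mul_comm]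

/-- If `s` fixes `F` and all symbols `⟨s, x⟩`, `x ^ p ∈ E`, vanish, then `s` fixes
`F(E^{1/p})`. -/
theorem mem_fixingSubgroup_kummerFieldOf (hζ : IsPrimitiveRoot ζ p) (E : Subgroup Fˣ) {s : Γ}
    (hs : s ∈ F.fixingSubgroup)
    (h0 : ∀ x ∈ rootsOfSub F p E, kum p ζ s x = 0) :
    s ∈ (kummerFieldOf F p E).fixingSubgroup := by
  rw [kummerFieldOf, IntermediateField.fixingSubgroup_sup]
  refine ⟨hs, ?_⟩
  have h1 : IntermediateField.adjoin ℚ (rootsOfSub F p E) ≤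
      IntermediateField.fixedField (Subgroup.zpowers s) := by
    rw [IntermediateField.adjoin_le_iff]
    rintro x ⟨e, he, hx⟩
    have hx0 : x ≠ 0 := by
      rintro rfl
      rw [zero_pow hp.out.ne_zero] at hx
      exact e.ne_zero (Subtype.ext hx.symm)
    have hxF : x ^ p ∈ F := by rw [hx]; exact (e : F).2
    have h2 := kum_spec F hζ hs hx0 hxF
    rw [h0 x ⟨e, he, hx⟩, zpw_zero, one_mul] at h2
    rw [SetLike.mem_coe, IntermediateField.mem_fixedField_iff]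
    intro t ht
    obtain ⟨n, rfl⟩ := Subgroup.mem_zpowers_iff.mp ht
    have hfix : ∀ n : ℕ, (s ^ n) x = x := by
      intro n
      induction n with
      | zero => simp
      | succ n ih => rw [pow_succ, AlgEquiv.mul_apply, h2, ih]
    have hfixinv : ∀ n : ℕ, ((s ^ n)⁻¹) x = x := by
      intro n
      have h3 : (s ^ n)⁻¹ x = (s ^ n)⁻¹ ((s ^ n) x) := by rw [hfix n]
      rw [← AlgEquiv.mul_apply, inv_mul_cancel, AlgEquiv.one_apply] at h3
      exact h3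
    cases n with
    | ofNat n => simpa using hfix n
    | negSucc n => simpa [zpow_negSucc] using hfixinv (n + 1)
  exact (IntermediateField.le_iff_le _ _).1 h1 (Subgroup.mem_zpowers s)

end Fermat.Agent.TW.TateKum22.Symbol
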