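/-
Programme TW (S56), brick C3-T4a (helper22), file 5: every additive level character of `Gal(ℚ̄/F)`
is a Kummer character (Hilbert 90), with the radicand in the `p`-Selmer group of `F` away from `S`.

`F ⊂ ℚ̄` finite over `ℚ`, `ζ_p ∈ F`, `L ⊇ F` finite Galois over `ℚ` unramified outside `S`,
`χ : Γ → ℤ/p` additive on `Gal(ℚ̄/F)` and killing `Gal(ℚ̄/L) ∩ Gal(ℚ̄/F)`.  Then there are `α ∈ Fˣ`
with `p ∣ ord_v α` for all `v ∤ S` and `β ∈ ℚ̄` with `β ^ p = α` and `s β = ζ ^ χ(s) β` for all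
`s ∈ Gal(ℚ̄/F)` (adapted from `PT/GLOB/H1Finite15.chi_eq_zero_of_mem_fixingSubgroup`).
-/
import Mathlib
import Fermat.Agent.TW.TateKum22.Symbol

set_option autoImplicit false
set_option linter.style.haveILetI false
set_option linter.unusedSectionVars false

namespace Fermat.Agent.TW.TateKum22.Hilbert90

open NumberField IsDedekindDomain
open Fermat.Agent.PT.GLOB.SelmerFinite15 Fermat.Agent.PT.GLOB.H1Finite15
open Fermat.Agent.TW.TateKum22.Symbol

local notation "Qbar" => AlgebraicClosure ℚ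
local notation "Γ" => (AlgebraicClosure ℚ ≃ₐ[ℚ] AlgebraicClosure ℚ)

local instance isAlgClosureQbarH90 : IsAlgClosure ℚ Qbar := ⟨inferInstance, inferInstance⟩
local instance normalQbarH90 : Normal ℚ Qbar := IsAlgClosure.normal ℚ Qbar
local instance isGaloisQbarH90 : IsGalois ℚ Qbar := IsAlgClosure.isGalois ℚ Qbar

variable {p : ℕ} [hp : Fact p.Prime] (S : Finset Nat.Primes)
  (F₀ : IntermediateField ℚ Qbar) [FiniteDimensional ℚ F₀]

/-- **Hilbert 90 for level characters.** -/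
theorem exists_kummer_generator {ζ : Qbar} (hζ : IsPrimitiveRoot ζ p) (hζF : ζ ∈ F₀)
    (L : IntermediateField ℚ Qbar) [FiniteDimensional ℚ L] [IsGalois ℚ L] (hle : F₀ ≤ L)
    (hL : L.IsUnramifiedOutside S) (χ : Γ → ZMod p)
    (hadd : ∀ s ∈ F₀.fixingSubgroup, ∀ t ∈ F₀.fixingSubgroup, χ (s * t) = χ s + χ t)
    (hL0 : ∀ s ∈ L.fixingSubgroup, s ∈ F₀.fixingSubgroup → χ s = 0) :
    ∃ (α : F₀ˣ) (β : Qbar), α ∈ selSub (R := 𝓞 F₀) (K := F₀) (primesAboveS S F₀) p ∧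
      β ^ p = ((α : F₀) : Qbar) ∧ ∀ s ∈ F₀.fixingSubgroup, s β = zpw ζ (χ s) * β := by
  classical
  have hpp : p.Prime := hp.out
  letI : Algebra F₀ L := (IntermediateField.inclusion hle).toRingHom.toAlgebra
  haveI : IsScalarTower ℚ F₀ L := IsScalarTower.of_algebraMap_eq (fun x => rfl)
  haveI : IsScalarTower F₀ L Qbar := IsScalarTower.of_algebraMap_eq (fun x => rfl)
  haveI : FiniteDimensional F₀ L := Module.Finite.of_restrictScalars_finite ℚ F₀ L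
  haveI : IsGalois F₀ L := IsGalois.tower_top_of_isGalois ℚ F₀ L
  haveI : Normal F₀ Qbar := Normal.tower_top_of_normal ℚ F₀ Qbar
  -- lifts of elements of `Gal(L/F₀)` to `Γ`
  let lift : (L ≃ₐ[F₀] L) → Γ := fun σ => (σ.liftNormal Qbar).restrictScalars ℚ
  have hlift_apply : ∀ (σ : L ≃ₐ[F₀] L) (x : L), lift σ (x : Qbar) = ((σ x : L) : Qbar) :=
    fun σ x => AlgEquiv.liftNormal_commutes σ Qbar x
  have hlift_mem : ∀ σ : L ≃ₐ[F₀] L, lift σ ∈ F₀.fixingSubgroup := by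
    intro σ
    rw [IntermediateField.mem_fixingSubgroup_iff]
    intro x hx
    exact (σ.liftNormal Qbar).commutes ⟨x, hx⟩
  -- `χ ∘ lift` is additive
  have hχmul : ∀ σ τ : L ≃ₐ[F₀] L, χ (lift (σ * τ)) = χ (lift σ) + χ (lift τ) := by
    intro σ τ
    rw [← hadd _ (hlift_mem σ) _ (hlift_mem τ)]
    refine chi_eq_of_agree F₀ L hadd hL0 (hlift_mem _) (mul_mem (hlift_mem σ) (hlift_mem τ)) ?_
    intro x hx
    rw [AlgEquiv.mul_apply, hlift_apply (σ * τ) ⟨x, hx⟩, hlift_apply τ ⟨x, hx⟩, hlift_apply σ]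
    rfl
  -- the root of unity in `L`
  have hζ0 : ζ ≠ 0 := hζ.ne_zero hpp.ne_zero
  let ζ₀ : F₀ := ⟨ζ, hζF⟩
  let ζL : Lˣ := Units.mk0 (algebraMap F₀ L ζ₀) (by
    rw [Ne, map_eq_zero]
    intro h
    exact hζ0 (congrArg Subtype.val h))
  have hζLcoe : (((ζL : Lˣ) : L) : Qbar) = ζ := rfl
  have hζLpow : ζL ^ p = 1 := by
    apply Units.ext
    apply Subtype.ext
    rw [Units.val_pow_eq_pow_val, Units.val_one]
    show (((ζL : Lˣ) : L) : Qbar) ^ p = 1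
    rw [hζLcoe, hζ.pow_eq_one]
  have hfix : ∀ σ : L ≃ₐ[F₀] L, ∀ k : ℕ,
      Units.map (σ : L →* L) (ζL ^ k) = ζL ^ k := by
    intro σ k
    apply Units.ext
    rw [Units.coe_map, MonoidHom.coe_coe, Units.val_pow_eq_pow_val, map_pow]
    congr 1
    exact σ.commutes ζ₀
  -- the cocycle
  let f : (L ≃ₐ[F₀] L) → Lˣ := fun σ => ζL ^ (χ (lift σ)).val
  have hf : @groupCohomology.IsMulCocycle₁ (L ≃ₐ[F₀] L) Lˣ _ _
      (AlgEquiv.instMulDistribMulActionUnits (R := F₀) (A₁ := L)).toMulAction.toSMul f := by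
    intro σ τ
    show ζL ^ (χ (lift (σ * τ))).val =
      Units.map (σ : L →* L) (ζL ^ (χ (lift τ)).val) * ζL ^ (χ (lift σ)).val
    rw [hfix, hχmul, ZMod.val_add, ← pow_add, add_comm (χ (lift τ)).val]
    exact (pow_eq_pow_mod _ hζLpow).symm
  obtain ⟨β, hβ⟩ := groupCohomology.isMulCoboundary₁_of_isMulCocycle₁_of_aut_to_units f hf
  have hβ' : ∀ σ : L ≃ₐ[F₀] L, σ (β : L) = ((f σ : Lˣ) : L) * (β : L) := by
    intro σ
    have h := hβ σ
    rw [div_eq_iff_eq_mul] at h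
    have h2 := congrArg (fun u : Lˣ => (u : L)) h
    simpa using h2
  -- `β ^ p` is fixed by `Gal(L/F₀)`, hence lies in `F₀`
  have hfpow : ∀ σ : L ≃ₐ[F₀] L, ((f σ : Lˣ) : L) ^ p = 1 := by
    intro σ
    show ((ζL ^ (χ (lift σ)).val : Lˣ) : L) ^ p = 1
    rw [← Units.val_pow_eq_pow_val, ← pow_mul, mul_comm, pow_mul, hζLpow, one_pow, Units.val_one]
  have hβp : ∀ σ : L ≃ₐ[F₀] L, σ ((β : L) ^ p) = (β : L) ^ p := by
    intro σ
    rw [map_pow, hβ', mul_pow, hfpow, one_mul]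
  obtain ⟨α₀, hα₀⟩ := (IsGalois.mem_range_algebraMap_iff_fixed ((β : L) ^ p)).mpr hβp
  have hα₀0 : α₀ ≠ 0 := by
    rintro rfl
    rw [map_zero] at hα₀
    exact pow_ne_zero p β.ne_zero hα₀.symm
  have hα₀coe : (((β : L) : Qbar)) ^ p = (α₀ : Qbar) := by
    have h := congrArg (fun x : L => (x : Qbar)) hα₀
    have h2 : ((algebraMap F₀ L α₀ : L) : Qbar) = (α₀ : Qbar) := rfl
    rw [← h2, h]
    simp
  let α : F₀ˣ := Units.mk0 α₀ hα₀0
  have hαsel : α ∈ selSub (R := 𝓞 F₀) (K := F₀) (primesAboveS S F₀) p :=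
    mem_selSub_of_pow_eq' S F₀ L hle hL p α ((β : L) : Qbar) (β : L).2 hα₀coe
  refine ⟨α, ((β : L) : Qbar), hαsel, hα₀coe, fun s hsF₀ => ?_⟩
  -- the restriction of `s` to `L`
  haveI : Normal F₀ L := Normal.tower_top_of_normal ℚ F₀ L
  let s' : Qbar ≃ₐ[F₀] Qbar := IntermediateField.fixingSubgroupEquiv F₀ ⟨s, hsF₀⟩
  let σs : L ≃ₐ[F₀] L := AlgEquiv.restrictNormalHom L s'
  have hσs : ∀ x : L, ((σs x : L) : Qbar) = s x := fun x =>
    AlgEquiv.restrictNormal_commutes s' L x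
  have hχs : χ s = χ (lift σs) := by
    refine chi_eq_of_agree F₀ L hadd hL0 hsF₀ (hlift_mem σs) fun x hx => ?_
    rw [hlift_apply σs ⟨x, hx⟩, hσs]
  have h1 := congrArg (fun x : L => (x : Qbar)) (hβ' σs)
  simp only [hσs] at h1
  rw [h1, hχs]
  show ((((ζL ^ (χ (lift σs)).val : Lˣ) : L) * (β : L) : L) : Qbar) = _
  rw [zpw]
  push_cast
  rw [hζLcoe]

end Fermat.Agent.TW.TateKum22.Hilbert90
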