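/-
Programme TW (S56), brick C3-T4a (helper22), file 6: the Kummer map `E/p → Hom(Gal(ℚ̄/F), ℤ/p)` and
the Kummer upper bound for an abstract unit model.

Setting: `F ⊂ ℚ̄`, `F/ℚ` finite Galois unramified outside `S`, `ζ_p ∈ F`, `H ≤ Γ` any subgroup
containing `Gal(ℚ̄/F)` (e.g. `H = Gal(ℚ̄/K')`, `K' ≤ F`),
`N = Gal(ℚ̄/F) ⊴ H` of index prime to `p`.  A *unit model* is a commutative group `E` with an action of
`H` and an equivariant homomorphism `ι : E → ℚ̄ˣ` with values in `F` such that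
* (`hcover`) every `x ∈ Fˣ` with `p ∣ ord_v x` for all `v ∤ S` is `ι e * g ^ p` (`g ∈ Fˣ`),
* (`hpow`)   if `ι e` is a `p`-th power in `F` then `e` is a `p`-th power in `E`.
Then for every `W : Rep (ZMod p) H` trivial on `N`:
`dim H¹_S(H, W) ≤ dim Hom_H(W.dualTwist cyclo, E/p)` where `E/p = ZMod p ⊗[ℤ] Additive E`.
-/
import Mathlib
import Fermat.Prelude.Def_ExtCitation_KummerBridge
import Fermat.Agent.PT.BR.LevelBridge13
import Fermat.Agent.TW.TateKum22.Core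
import Fermat.Agent.TW.TateKum22.Hilbert90

set_option autoImplicit false
set_option linter.style.haveILetI false
set_option linter.unusedSectionVars false

namespace Fermat.Agent.TW.TateKum22.KummerMap

open NumberField IsDedekindDomain TensorProduct
open Fermat.Agent.PT.GLOB.SelmerFinite15 Fermat.Agent.PT.GLOB.H1Finite15
open Fermat.Agent.TW.TateKum22.Symbol Fermat.Agent.PT.PRO Fermat.Agent.PT.BR

local notation "Qbar" => AlgebraicClosure ℚ
local notation "Γ" => (AlgebraicClosure ℚ ≃ₐ[ℚ] AlgebraicClosure ℚ)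

local instance isAlgClosureQbarKM : IsAlgClosure ℚ Qbar := ⟨inferInstance, inferInstance⟩
local instance normalQbarKM : Normal ℚ Qbar := IsAlgClosure.normal ℚ Qbar
local instance isGaloisQbarKM : IsGalois ℚ Qbar := IsAlgClosure.isGalois ℚ Qbar

/-! ### `E/p` as a representation -/

section BaseChangeRep

variable (p : ℕ) (G E : Type*) [Group G] [CommGroup E] [MulDistribMulAction G E]

/-- The representation of `G` on `E/p = ZMod p ⊗[ℤ] Additive E`. -/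
noncomputable def rhoE : Representation (ZMod p) G (ZMod p ⊗[ℤ] Additive E) :=
  ((Module.End.baseChangeHom ℤ (ZMod p) (Additive E) :
      Module.End ℤ (Additive E) →ₐ[ℤ] Module.End (ZMod p) (ZMod p ⊗[ℤ] Additive E)) :
      Module.End ℤ (Additive E) →* Module.End (ZMod p) (ZMod p ⊗[ℤ] Additive E)).comp
    (Representation.ofMulDistribMulAction G E)

@[simp] theorem rhoE_tmul (g : G) (a : ZMod p) (e : Additive E) :
    rhoE p G E g (a ⊗ₜ[ℤ] e) = a ⊗ₜ[ℤ] Additive.ofMul (g • Additive.toMul e) := rfl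

variable {p E}

/-- Every element of `ZMod p ⊗[ℤ] M` is a pure tensor `1 ⊗ m`. -/
theorem exists_one_tmul {M : Type*} [AddCommGroup M] (x : ZMod p ⊗[ℤ] M) :
    ∃ m : M, x = (1 : ZMod p) ⊗ₜ[ℤ] m := by
  induction x using TensorProduct.induction_on with
  | zero => exact ⟨0, (TensorProduct.tmul_zero _ _).symm⟩
  | tmul r m =>
    refine ⟨(r.cast : ℤ) • m, ?_⟩
    rw [← TensorProduct.smul_tmul, zsmul_eq_mul, mul_one, ZMod.intCast_cast, ZMod.cast_id',
      id_eq]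
  | add x y hx hy =>
    obtain ⟨a, rfl⟩ := hx
    obtain ⟨b, rfl⟩ := hy
    exact ⟨a + b, (TensorProduct.tmul_add _ _ _).symm⟩

theorem one_tmul_pow_eq_zero [NeZero p] (e : E) :
    (1 : ZMod p) ⊗ₜ[ℤ] Additive.ofMul (e ^ p) = 0 := by
  rw [ofMul_pow, ← Nat.cast_smul_eq_nsmul ℤ, ← TensorProduct.smul_tmul, Nat.cast_smul_eq_nsmul,
    nsmul_eq_mul, mul_one, ZMod.natCast_self, TensorProduct.zero_tmul]

end BaseChangeRep

/-! ### The Kummer map -/

section Kummer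

variable {p : ℕ} [hp : Fact p.Prime]

/-- A chosen `p`-th root. -/
noncomputable def rt (p : ℕ) [hp : Fact p.Prime] (x : Qbar) : Qbar :=
  (IsAlgClosed.exists_pow_nat_eq x hp.out.pos).choose

theorem rt_pow (x : Qbar) : rt p x ^ p = x :=
  (IsAlgClosed.exists_pow_nat_eq x hp.out.pos).choose_spec

theorem rt_ne_zero {x : Qbar} (hx : x ≠ 0) : rt p x ≠ 0 := by
  intro h
  have := rt_pow (p := p) x
  rw [h, zero_pow hp.out.ne_zero] at this
  exact hx this.symm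

/-- `g ζ = ζ ^ cyclo(g)`. -/
theorem apply_eq_zpw_cycloChar {ζ : Qbar} (hζ : IsPrimitiveRoot ζ p) (g : Γ) :
    g ζ = zpw ζ ((ExtCitation.cycloChar p g : (ZMod p)ˣ) : ZMod p) := by
  haveI : NeZero p := ⟨hp.out.ne_zero⟩
  have hζ0 : ζ ≠ 0 := hζ.ne_zero hp.out.ne_zero
  have hmem : Units.mk0 ζ hζ0 ∈ rootsOfUnity p Qbar := by
    rw [mem_rootsOfUnity]
    apply Units.ext
    rw [Units.val_pow_eq_pow_val, Units.val_one, Units.val_mk0, hζ.pow_eq_one]
  have := modularCyclotomicCharacter.spec Qbar (ExtCitation.card_rootsOfUnity_eq_self p)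
    (g : Qbar ≃+* Qbar) hmem
  exact this

variable (F : IntermediateField ℚ Qbar) (H : Subgroup Γ)

/-- `N = Gal(ℚ̄/F)` as a subgroup of `H`. -/
noncomputable abbrev NF : Subgroup ↥H := F.fixingSubgroup.subgroupOf H

variable {F H}

theorem coe_mem_fixingSubgroup (n : ↥(NF F H)) :
    ((n : ↥H) : Γ) ∈ F.fixingSubgroup := Subgroup.mem_subgroupOf.mp n.2

variable {E : Type} [CommGroup E] (ι : E →* Qbarˣ)

theorem iota_ne_zero (e : E) : ((ι e : Qbarˣ) : Qbar) ≠ 0 := (ι e).ne_zero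

/-- The Kummer homomorphism `E → Hom(Gal(ℚ̄/F), ℤ/p)`, `e ↦ (n ↦ ⟨n, e^{1/p}⟩)`. -/
noncomputable def kumHom {ζ : Qbar} (hζ : IsPrimitiveRoot ζ p) (hζF : ζ ∈ F)
    (hιF : ∀ e : E, ((ι e : Qbarˣ) : Qbar) ∈ F) :
    Additive E →+ (↥(NF F H) → ZMod p) where
  toFun e := fun n => kum p ζ ((n : ↥H) : Γ)
    (rt p ((ι (Additive.toMul e) : Qbarˣ) : Qbar))
  map_zero' := by
    funext n
    show kum p ζ ((n : ↥H) : Γ) (rt p ((ι (1 : E) : Qbarˣ) : Qbar)) = 0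
    rw [map_one, Units.val_one]
    have h1 : kum p ζ ((n : ↥H) : Γ) (rt p (1 : Qbar)) =
        kum p ζ ((n : ↥H) : Γ) 1 :=
      kum_eq_of_pow_eq F hζ hζF (coe_mem_fixingSubgroup n) one_ne_zero
        (by rw [one_pow]; exact one_mem F) (by rw [rt_pow, one_pow])
    rw [h1]
    exact kum_of_mem F hζ (coe_mem_fixingSubgroup n) one_ne_zero (one_mem F)
  map_add' a b := by
    funext n
    show kum p ζ ((n : ↥H) : Γ)
        (rt p ((ι (Additive.toMul a * Additive.toMul b) : Qbarˣ) : Qbar)) =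
      kum p ζ ((n : ↥H) : Γ) (rt p ((ι (Additive.toMul a) : Qbarˣ) : Qbar)) +
      kum p ζ ((n : ↥H) : Γ) (rt p ((ι (Additive.toMul b) : Qbarˣ) : Qbar))
    set x := ((ι (Additive.toMul a) : Qbarˣ) : Qbar) with hx
    set y := ((ι (Additive.toMul b) : Qbarˣ) : Qbar) with hy
    have hx0 : x ≠ 0 := iota_ne_zero ι _
    have hy0 : y ≠ 0 := iota_ne_zero ι _
    have hrx : rt p x ^ p ∈ F := by rw [rt_pow]; exact hιF _
    have hry : rt p y ^ p ∈ F := by rw [rt_pow]; exact hιF _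
    rw [map_mul, Units.val_mul, ← hx, ← hy,
      ← kum_mul_right F hζ (coe_mem_fixingSubgroup n) (rt_ne_zero hx0) hrx (rt_ne_zero hy0) hry]
    refine kum_eq_of_pow_eq F hζ hζF (coe_mem_fixingSubgroup n)
      (mul_ne_zero (rt_ne_zero hx0) (rt_ne_zero hy0)) ?_ ?_
    · rw [mul_pow]; exact F.mul_mem hrx hry
    · rw [rt_pow, mul_pow, rt_pow, rt_pow]

theorem kumHom_apply {ζ : Qbar} (hζ : IsPrimitiveRoot ζ p) (hζF : ζ ∈ F)
    (hιF : ∀ e : E, ((ι e : Qbarˣ) : Qbar) ∈ F) (e : Additive E) (n : ↥(NF F H)) :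
    kumHom (H := H) ι hζ hζF hιF e n = kum p ζ ((n : ↥H) : Γ)
      (rt p ((ι (Additive.toMul e) : Qbarˣ) : Qbar)) := rfl

/-- The Kummer map `E/p → Hom(Gal(ℚ̄/F), ℤ/p)`. -/
noncomputable def kappa {ζ : Qbar} (hζ : IsPrimitiveRoot ζ p) (hζF : ζ ∈ F)
    (hιF : ∀ e : E, ((ι e : Qbarˣ) : Qbar) ∈ F) :
    (ZMod p ⊗[ℤ] Additive E) →ₗ[ZMod p] (↥(NF F H) → ZMod p) :=
  (kumHom (H := H) ι hζ hζF hιF).toIntLinearMap.liftBaseChange (ZMod p)

theorem kappa_one_tmul {ζ : Qbar} (hζ : IsPrimitiveRoot ζ p) (hζF : ζ ∈ F)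
    (hιF : ∀ e : E, ((ι e : Qbarˣ) : Qbar) ∈ F) (e : Additive E) (n : ↥(NF F H)) :
    kappa (H := H) ι hζ hζF hιF ((1 : ZMod p) ⊗ₜ[ℤ] e) n =
      kum p ζ ((n : ↥H) : Γ) (rt p ((ι (Additive.toMul e) : Qbarˣ) : Qbar)) := by
  rw [kappa, LinearMap.liftBaseChange_tmul, one_smul]
  rfl

/-- **Injectivity** of the Kummer map (`hpow`: elements of `E` which are `p`-th powers in `F` are
`p`-th powers in `E`). -/
theorem kappa_injective (hle : F.fixingSubgroup ≤ H) {ζ : Qbar} (hζ : IsPrimitiveRoot ζ p) (hζF : ζ ∈ F)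
    (hιF : ∀ e : E, ((ι e : Qbarˣ) : Qbar) ∈ F)
    (hpow : ∀ e : E, (∃ y : Qbar, y ∈ F ∧ y ^ p = ((ι e : Qbarˣ) : Qbar)) → ∃ e₀ : E, e = e₀ ^ p) :
    Function.Injective (kappa (H := H) ι hζ hζF hιF) := by
  haveI : NeZero p := ⟨hp.out.ne_zero⟩
  rw [injective_iff_map_eq_zero]
  intro x hx
  obtain ⟨a, rfl⟩ := exists_one_tmul x
  set r := rt p ((ι (Additive.toMul a) : Qbarˣ) : Qbar) with hr
  have hr0 : r ≠ 0 := rt_ne_zero (iota_ne_zero ι _)
  have hrF : r ^ p ∈ F := by rw [hr, rt_pow]; exact hιF _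
  have hrmem : r ∈ F := by
    rw [← InfiniteGalois.fixedField_fixingSubgroup (k := ℚ) (K := Qbar) F,
      IntermediateField.mem_fixedField_iff]
    intro s hs
    have h1 := congrFun hx
      ⟨⟨s, hle hs⟩, Subgroup.mem_subgroupOf.mpr hs⟩
    rw [kappa_one_tmul] at h1
    have h2 := kum_spec F hζ hs hr0 hrF
    rw [show kum p ζ s r = 0 from h1, zpw_zero, one_mul] at h2
    exact h2
  obtain ⟨e₀, he₀⟩ := hpow _ ⟨r, hrmem, rt_pow _⟩
  have ha : a = Additive.ofMul (e₀ ^ p) := by rw [← he₀]; rfl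
  rw [ha, one_tmul_pow_eq_zero]

/-- **Equivariance** of the Kummer map: `κ (g x) n = cyclo(g) * κ x (g⁻¹ n g)`. -/
theorem kappa_equivariant [MulDistribMulAction ↥H E]
    {ζ : Qbar} (hζ : IsPrimitiveRoot ζ p) (hζF : ζ ∈ F)
    (hιF : ∀ e : E, ((ι e : Qbarˣ) : Qbar) ∈ F)
    (hιeq : ∀ (h : ↥H) (e : E),
      ((ι (h • e) : Qbarˣ) : Qbar) = (h : Γ) ((ι e : Qbarˣ) : Qbar))
    (g : ↥H) (x : ZMod p ⊗[ℤ] Additive E) (n m : ↥(NF F H))
    (hm : (m : ↥H) = g⁻¹ * n * g) :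
    kappa (H := H) ι hζ hζF hιF (rhoE p ↥H E g x) n =
      (((ExtCitation.cycloChar p).comp H.subtype g : (ZMod p)ˣ) : ZMod p) *
        kappa (H := H) ι hζ hζF hιF x m := by
  obtain ⟨a, rfl⟩ := exists_one_tmul x
  rw [rhoE_tmul, kappa_one_tmul, kappa_one_tmul, toMul_ofMul]
  set e : E := Additive.toMul a with he
  set r := rt p ((ι e : Qbarˣ) : Qbar) with hr
  have hr0 : r ≠ 0 := rt_ne_zero (iota_ne_zero ι _)
  have hrF : r ^ p ∈ F := by rw [hr, rt_pow]; exact hιF _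
  set r' : Qbar := (g : Γ) r with hr'
  have hr'0 : r' ≠ 0 := by
    rw [hr', Ne, map_eq_zero]; exact hr0
  have hr'p : r' ^ p = ((ι (g • e) : Qbarˣ) : Qbar) := by
    rw [hr', ← map_pow, hr, rt_pow, hιeq]
  have hr'F : r' ^ p ∈ F := by rw [hr'p]; exact hιF _
  have hn : ((n : ↥H) : Γ) =
      (g : Γ) * ((m : ↥H) : Γ) * (g : Γ)⁻¹ := by
    rw [hm]
    push_cast
    group
  have hginv : (g : Γ)⁻¹ r' = r := by
    rw [hr', ← AlgEquiv.mul_apply, inv_mul_cancel, AlgEquiv.one_apply]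
  have h1 : kum p ζ ((n : ↥H) : Γ) (rt p ((ι (g • e) : Qbarˣ) : Qbar)) =
      kum p ζ ((n : ↥H) : Γ) r' :=
    kum_eq_of_pow_eq F hζ hζF (coe_mem_fixingSubgroup n) hr'0 hr'F (by rw [rt_pow, hr'p])
  rw [h1]
  have hconj : (g : Γ) * ((m : ↥H) : Γ) * (g : Γ)⁻¹ ∈ F.fixingSubgroup := by
    rw [← hn]; exact coe_mem_fixingSubgroup n
  have h2 := kum_conj F hζ (coe_mem_fixingSubgroup m) hconj hr'0 hr'F
    (by rw [hginv]; exact hrF) (apply_eq_zpw_cycloChar hζ (g : Γ))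
  rw [hginv, ← hn] at h2
  rw [h2]
  rfl

section Surj

variable (S : Finset Nat.Primes) [FiniteDimensional ℚ F]

/-- **Surjectivity** of the Kummer map onto the additive level characters of `Gal(ℚ̄/F)` (`hcover`:
the `p`-Selmer group of `F` away from `S` is covered by `E`). -/
theorem kappa_surjective (hle : F.fixingSubgroup ≤ H) (hF : F.IsUnramifiedOutside S)
    {ζ : Qbar} (hζ : IsPrimitiveRoot ζ p) (hζF : ζ ∈ F)
    (hιF : ∀ e : E, ((ι e : Qbarˣ) : Qbar) ∈ F)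
    (hcover : ∀ x ∈ selSub (R := 𝓞 F) (K := F) (primesAboveS S F) p, ∃ e : E, ∃ g : Fˣ,
      (((x : Fˣ) : F) : Qbar) = ((ι e : Qbarˣ) : Qbar) * (((g : Fˣ) : F) : Qbar) ^ p)
    (χ : ↥(NF F H) → ZMod p)
    (hχ : Core.IsLevelChar (LevelBridge13.pullBasisS H.subtype S) (NF F H) χ) :
    ∃ x, kappa (H := H) ι hζ hζF hιF x = χ := by
  classical
  obtain ⟨hadd, U, hU, hU0⟩ := hχ
  obtain ⟨L₀, hL₀, rfl⟩ := hU
  have hFK : F.fixingSubgroup ≤ H := hle
  -- the element of `N` attached to `s ∈ Gal(ℚ̄/F)`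
  let mk : ∀ s : Γ, s ∈ F.fixingSubgroup → ↥(NF F H) := fun s hs =>
    ⟨⟨s, hFK hs⟩, Subgroup.mem_subgroupOf.mpr hs⟩
  -- extend `χ` by zero
  let χ' : Γ → ZMod p := fun s => if hs : s ∈ F.fixingSubgroup then χ (mk s hs) else 0
  have hχ' : ∀ (s : Γ) (hs : s ∈ F.fixingSubgroup), χ' s = χ (mk s hs) := fun s hs => dif_pos hs
  have hadd' : ∀ s ∈ F.fixingSubgroup, ∀ t ∈ F.fixingSubgroup, χ' (s * t) = χ' s + χ' t := by
    intro s hs t ht
    rw [hχ' _ (mul_mem hs ht), hχ' s hs, hχ' t ht, ← hadd]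
    rfl
  obtain ⟨L, hEL, hLgal, hL⟩ :=
    UnramBridge13.exists_isGalois_isUnramifiedOutside (hL₀.sup hF)
  haveI := hL.1
  haveI := hLgal
  have hL0 : ∀ s ∈ L.fixingSubgroup, s ∈ F.fixingSubgroup → χ' s = 0 := by
    intro s hsL hs
    rw [hχ' s hs]
    apply hU0
    show ((mk s hs : ↥(NF F H)) : ↥H) ∈
      L₀.fixingSubgroup.comap H.subtype
    rw [Subgroup.mem_comap]
    exact IntermediateField.fixingSubgroup_antitone (le_sup_left.trans hEL) hsL
  obtain ⟨α, β, hαsel, hβ, hβs⟩ := Hilbert90.exists_kummer_generator S F hζ hζF L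
    (le_sup_right.trans hEL) hL χ' hadd' hL0
  obtain ⟨e, g, hg⟩ := hcover α hαsel
  have hg0 : (((g : Fˣ) : F) : Qbar) ≠ 0 := by
    intro h
    exact g.ne_zero (Subtype.ext h)
  have hgF : (((g : Fˣ) : F) : Qbar) ∈ F := (g : F).2
  set β' : Qbar := β / (((g : Fˣ) : F) : Qbar) with hβ'
  have hβ'p : β' ^ p = ((ι e : Qbarˣ) : Qbar) := by
    rw [hβ', div_pow, hβ, hg]
    field_simp
  have hβ'0 : β' ≠ 0 := by
    intro h
    rw [h, zero_pow hp.out.ne_zero] at hβ'p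
    exact iota_ne_zero ι e hβ'p.symm
  have hβ'F : β' ^ p ∈ F := by rw [hβ'p]; exact hιF e
  refine ⟨(1 : ZMod p) ⊗ₜ[ℤ] Additive.ofMul e, ?_⟩
  funext n
  rw [kappa_one_tmul, toMul_ofMul]
  have hn := coe_mem_fixingSubgroup n
  have h1 : kum p ζ ((n : ↥H) : Γ) (rt p ((ι e : Qbarˣ) : Qbar)) =
      kum p ζ ((n : ↥H) : Γ) β' :=
    kum_eq_of_pow_eq F hζ hζF hn hβ'0 hβ'F (by rw [rt_pow, hβ'p])
  rw [h1, kum_eq_iff F hζ hn hβ'0 hβ'F, hβ', map_div₀, hβs _ hn,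
    (IntermediateField.mem_fixingSubgroup_iff _ _).mp hn _ hgF, hχ' _ hn, mul_div_assoc]

end Surj

end Kummer

/-! ### The Kummer upper bound for an abstract unit model -/

section Main

variable {p : ℕ} [hp : Fact p.Prime] (S : Finset Nat.Primes)
  {F : IntermediateField ℚ Qbar} {H : Subgroup Γ} [FiniteDimensional ℚ F] [IsGalois ℚ F]
  {E : Type} [CommGroup E] [MulDistribMulAction ↥H E] (ι : E →* Qbarˣ)

instance normal_NF : (NF F H).Normal :=
  haveI := LevelBridge13.normal_fixingSubgroup F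
  Subgroup.normal_subgroupOf

instance finiteIndex_NF : (NF F H).FiniteIndex :=
  haveI := LevelBridge13.finiteIndex_fixingSubgroup F
  Subgroup.instFiniteIndex_subgroupOf _ _

/-- **Kummer upper bound** `dim H¹_S(H, W) ≤ dim Hom_H(W^*, E/p)` for an abstract unit model
`(E, ι)`. -/
theorem finrank_H1_le_of_unitModel (hle : F.fixingSubgroup ≤ H) (hF : F.IsUnramifiedOutside S)
    {ζ : Qbar} (hζ : IsPrimitiveRoot ζ p) (hζF : ζ ∈ F)
    (hcop : (NF F H).index.Coprime p)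
    [Module.Finite (ZMod p) (ZMod p ⊗[ℤ] Additive E)]
    (hιF : ∀ e : E, ((ι e : Qbarˣ) : Qbar) ∈ F)
    (hιeq : ∀ (h : ↥H) (e : E),
      ((ι (h • e) : Qbarˣ) : Qbar) = (h : Γ) ((ι e : Qbarˣ) : Qbar))
    (hcover : ∀ x ∈ selSub (R := 𝓞 F) (K := F) (primesAboveS S F) p, ∃ e : E, ∃ g : Fˣ,
      (((x : Fˣ) : F) : Qbar) = ((ι e : Qbarˣ) : Qbar) * (((g : Fˣ) : F) : Qbar) ^ p)
    (hpow : ∀ e : E, (∃ y : Qbar, y ∈ F ∧ y ^ p = ((ι e : Qbarˣ) : Qbar)) → ∃ e₀ : E, e = e₀ ^ p)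
    (W : Rep.{0} (ZMod p) ↥H) [FiniteDimensional (ZMod p) W]
    (hW : ∀ n : ↥H, (n : Γ) ∈ F.fixingSubgroup → W.ρ n = 1) :
    Module.finrank (ZMod p)
        (LevelCoh28.H1 (LevelBridge13.pullBasisS H.subtype S) W) ≤
      Module.finrank (ZMod p) (Representation.linHom
        (W.dualTwist ((ExtCitation.cycloChar p).comp H.subtype)).ρ
        (rhoE p ↥H E)).invariants := by
  have hidx : ((NF F H).index : ZMod p) ≠ 0 := by
    intro h
    rw [ZMod.natCast_eq_zero_iff] at h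
    have h1 : p ∣ 1 := by
      have := Nat.dvd_gcd h (dvd_refl p)
      rwa [hcop.gcd_eq_one] at this
    exact hp.out.one_lt.ne' (Nat.dvd_one.mp h1)
  exact Core.finrank_H1_le (N := NF F H)
    ((ExtCitation.cycloChar p).comp H.subtype) (rhoE p ↥H E)
    (kappa (H := H) ι hζ hζF hιF)
    (fun n hn => hW n (Subgroup.mem_subgroupOf.mp hn)) hidx
    (kappa_injective ι hle hζ hζF hιF hpow)
    (kappa_surjective ι S hle hF hζ hζF hιF hcover)
    (fun g x n m hm => kappa_equivariant ι hζ hζF hιF hιeq g x n m hm)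

end Main

end Fermat.Agent.TW.TateKum22.KummerMap
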