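/-
Programme TW (S56), brick C3-T4a (helper22), file 7: **the Kummer upper bound for the `S`-units.**

`K' ≤ F ⊂ ℚ̄`, `F/ℚ` finite Galois unramified outside `S`, `ζ_p ∈ F`, `[F : K']` prime to `p`
(`hcop`), the `S`-class group of `F` has no `p`-torsion in the form `hCl` (every `x ∈ Fˣ` with
`p ∣ ord_P x` for all `P ∤ S` is an `S`-unit times a `p`-th power).  `H = Gal(ℚ̄/K')`,
`E = (Interface23.divT S F).ker` the `S`-units of `F`, with `D = Gal(F/ℚ)` acting through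
`UnitsBridge24.unitsTSmul` and `H` through `H ⊂ Γ → D`.  Then for `W : Rep (ZMod p) H` inflated from
`Gal(F/K')`:

  `dim H¹(G_{K',S}, W) ≤ dim Hom_H(W.dualTwist cyclo, E/p)`,   `E/p = ZMod p ⊗[ℤ] Additive E`.
-/
import Mathlib
import Fermat.Agent.PT.GLOB.UnitsBridge24
import Fermat.Agent.TW.TateKum22.KummerMap

set_option autoImplicit false
set_option linter.style.haveILetI false
set_option linter.unusedSectionVars false

namespace Fermat.Agent.TW.TateKum22.Units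

open NumberField IsDedekindDomain TensorProduct
open Fermat.Agent.PT.GLOB Fermat.Agent.PT.GLOB.SelmerFinite15 Fermat.Agent.PT.GLOB.H1Finite15
open Fermat.Agent.PT.PRO Fermat.Agent.PT.BR
open Fermat.Agent.TW.TateKum22.KummerMap

local notation "Qbar" => AlgebraicClosure ℚ
local notation "Γ" => (AlgebraicClosure ℚ ≃ₐ[ℚ] AlgebraicClosure ℚ)

local instance isAlgClosureQbarU22 : IsAlgClosure ℚ Qbar := ⟨inferInstance, inferInstance⟩
local instance normalQbarU22 : Normal ℚ Qbar := IsAlgClosure.normal ℚ Qbar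
local instance isGaloisQbarU22 : IsGalois ℚ Qbar := IsAlgClosure.isGalois ℚ Qbar

variable (p : ℕ) [hp : Fact p.Prime] (S : Finset Nat.Primes)
  (F K' : IntermediateField ℚ Qbar) [FiniteDimensional ℚ F] [IsGalois ℚ F]

theorem coe_coe_unitsTSmul (σ : ↥F ≃ₐ[ℚ] ↥F) (x : ↥(Interface23.divT S ↥F).ker) :
    (((UnitsBridge24.unitsTSmul S ℚ ↥F σ x : _) : (↥F)ˣ) : ↥F) = σ ((x : (↥F)ˣ) : ↥F) := rfl

theorem unitsT_ext {x y : ↥(Interface23.divT S ↥F).ker}
    (h : ((x : (↥F)ˣ) : ↥F) = ((y : (↥F)ˣ) : ↥F)) : x = y :=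
  Subtype.ext (Units.ext h)

/-- The action of `D = Gal(F/ℚ)` on the `S`-units of `F`. -/
@[instance_reducible]
noncomputable def actD : MulDistribMulAction (↥F ≃ₐ[ℚ] ↥F) ↥(Interface23.divT S ↥F).ker where
  smul σ x := UnitsBridge24.unitsTSmul S ℚ ↥F σ x
  one_smul x := by
    apply unitsT_ext
    show (((UnitsBridge24.unitsTSmul S ℚ ↥F 1 x : _) : (↥F)ˣ) : ↥F) = _
    rw [coe_coe_unitsTSmul, AlgEquiv.one_apply]
  mul_smul σ τ x := by
    apply unitsT_ext
    show (((UnitsBridge24.unitsTSmul S ℚ ↥F (σ * τ) x : _) : (↥F)ˣ) : ↥F) =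
      (((UnitsBridge24.unitsTSmul S ℚ ↥F σ (UnitsBridge24.unitsTSmul S ℚ ↥F τ x) : _) :
        (↥F)ˣ) : ↥F)
    rw [coe_coe_unitsTSmul, coe_coe_unitsTSmul, coe_coe_unitsTSmul, AlgEquiv.mul_apply]
  smul_mul σ x y := map_mul (UnitsBridge24.unitsTSmul S ℚ ↥F σ) x y
  smul_one σ := map_one (UnitsBridge24.unitsTSmul S ℚ ↥F σ)

/-- `H ⊂ Γ → D = Gal(F/ℚ)` for an arbitrary subgroup `H` of `Γ`. -/
noncomputable def toDH (H : Subgroup Γ) : ↥H →* (↥F ≃ₐ[ℚ] ↥F) :=
  (AlgEquiv.restrictNormalHom F).comp H.subtype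

/-- The action of a subgroup `H ≤ Γ` on the `S`-units of `F`. -/
@[instance_reducible]
noncomputable def actHH (H : Subgroup Γ) :
    MulDistribMulAction ↥H ↥(Interface23.divT S ↥F).ker :=
  letI := actD S F
  MulDistribMulAction.compHom _ (toDH F H)

/-- `E/p` as a representation of `D = Gal(F/ℚ)`. -/
noncomputable def rhoUnitsD : Representation (ZMod p) (↥F ≃ₐ[ℚ] ↥F)
    (ZMod p ⊗[ℤ] Additive ↥(Interface23.divT S ↥F).ker) :=
  @rhoE p (↥F ≃ₐ[ℚ] ↥F) ↥(Interface23.divT S ↥F).ker _ _ (actD S F)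

/-- `E/p` as a representation of a subgroup `H ≤ Γ`. -/
noncomputable def rhoUnitsH (H : Subgroup Γ) : Representation (ZMod p) ↥H
    (ZMod p ⊗[ℤ] Additive ↥(Interface23.divT S ↥F).ker) :=
  @rhoE p ↥H ↥(Interface23.divT S ↥F).ker _ _ (actHH S F H)

theorem rhoUnitsD_tmul (σ : ↥F ≃ₐ[ℚ] ↥F) (a : ZMod p)
    (x : Additive ↥(Interface23.divT S ↥F).ker) :
    rhoUnitsD p S F σ (a ⊗ₜ[ℤ] x) =
      a ⊗ₜ[ℤ] Additive.ofMul (UnitsBridge24.unitsTSmul S ℚ ↥F σ (Additive.toMul x)) := rfl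

theorem rhoUnitsH_eq_comp (H : Subgroup Γ) :
    rhoUnitsH p S F H = (rhoUnitsD p S F).comp (toDH F H) := rfl

theorem rhoUnitsH_apply (H : Subgroup Γ) (h : ↥H) :
    rhoUnitsH p S F H h = rhoUnitsD p S F (toDH F H h) := rfl

/-- `H = Gal(ℚ̄/K') → Γ → D = Gal(F/ℚ)`. -/
noncomputable def toD : ↥K'.fixingSubgroup →* (↥F ≃ₐ[ℚ] ↥F) := toDH F K'.fixingSubgroup

/-- The action of `H = Gal(ℚ̄/K')` on the `S`-units of `F`. -/
@[instance_reducible]
noncomputable def actH : MulDistribMulAction ↥K'.fixingSubgroup ↥(Interface23.divT S ↥F).ker :=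
  actHH S F K'.fixingSubgroup

/-- `E/p` as a representation of `H = Gal(ℚ̄/K')`. -/
noncomputable def rhoUnits : Representation (ZMod p) ↥K'.fixingSubgroup
    (ZMod p ⊗[ℤ] Additive ↥(Interface23.divT S ↥F).ker) :=
  rhoUnitsH p S F K'.fixingSubgroup

theorem rhoUnits_eq_comp : rhoUnits p S F K' = (rhoUnitsD p S F).comp (toD F K') := rfl

theorem rhoUnits_apply (h : ↥K'.fixingSubgroup) :
    rhoUnits p S F K' h = rhoUnitsD p S F (toD F K' h) := rfl

/-! ### The unit model `(E, ι)` -/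

/-- `ι : E → ℚ̄ˣ`. -/
noncomputable def iotaU : ↥(Interface23.divT S ↥F).ker →* Qbarˣ :=
  (Units.map ((F.val : ↥F →ₐ[ℚ] Qbar) : ↥F →* Qbar)).comp (Interface23.divT S ↥F).ker.subtype

theorem coe_iotaU (e : ↥(Interface23.divT S ↥F).ker) :
    ((iotaU S F e : Qbarˣ) : Qbar) = (((e : (↥F)ˣ) : ↥F) : Qbar) := rfl

theorem iotaU_mem (e : ↥(Interface23.divT S ↥F).ker) : ((iotaU S F e : Qbarˣ) : Qbar) ∈ F :=
  ((e : (↥F)ˣ) : ↥F).2

theorem iotaU_smul (H : Subgroup Γ) (h : ↥H) (e : ↥(Interface23.divT S ↥F).ker) :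
    ((iotaU S F ((actHH S F H).smul h e) : Qbarˣ) : Qbar) =
      (h : Γ) ((iotaU S F e : Qbarˣ) : Qbar) := by
  rw [coe_iotaU, coe_iotaU]
  exact AlgEquiv.restrictNormal_commutes (h : Γ) F ((e : (↥F)ˣ) : ↥F)

/-- `ord_P` as a homomorphism. -/
noncomputable def ordHomU (P : HeightOneSpectrum (𝓞 ↥F)) : (↥F)ˣ →* Multiplicative ℤ where
  toFun x := Multiplicative.ofAdd (Interface23.ordAt ↥F P x)
  map_one' := by rw [Interface23.ordAt_one]; rfl
  map_mul' x y := by rw [Interface23.ordAt_mul]; rfl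

theorem ordAt_pow (P : HeightOneSpectrum (𝓞 ↥F)) (x : (↥F)ˣ) (n : ℕ) :
    Interface23.ordAt ↥F P (x ^ n) = n * Interface23.ordAt ↥F P x := by
  have h := map_pow (ordHomU F P) x n
  have h2 := congrArg Multiplicative.toAdd h
  simpa [ordHomU] using h2

/-- `S`-units which are `p`-th powers in `F` are `p`-th powers of `S`-units. -/
theorem exists_pow_eq_of_iotaU (e : ↥(Interface23.divT S ↥F).ker)
    (h : ∃ y : Qbar, y ∈ F ∧ y ^ p = ((iotaU S F e : Qbarˣ) : Qbar)) :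
    ∃ e₀ : ↥(Interface23.divT S ↥F).ker, e = e₀ ^ p := by
  obtain ⟨y, hyF, hy⟩ := h
  have hy0 : (⟨y, hyF⟩ : ↥F) ≠ 0 := by
    intro h0
    have h1 : y = 0 := congrArg Subtype.val h0
    rw [h1, zero_pow hp.out.ne_zero] at hy
    exact (iotaU S F e).ne_zero hy.symm
  set y' : (↥F)ˣ := Units.mk0 ⟨y, hyF⟩ hy0 with hy'
  have hpow : y' ^ p = (e : (↥F)ˣ) := by
    apply Units.ext
    apply Subtype.ext
    rw [Units.val_pow_eq_pow_val]
    show y ^ p = _
    rw [hy, coe_iotaU]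
  have hmem : y' ∈ (Interface23.divT S ↥F).ker := by
    rw [UnitsBridge24.mem_ker_divT_iff]
    intro P
    have h1 := (UnitsBridge24.mem_ker_divT_iff S ↥F (e : (↥F)ˣ)).mp e.2 P
    rw [← hpow, ordAt_pow] at h1
    rcases mul_eq_zero.mp h1 with h2 | h2
    · exact absurd (by exact_mod_cast h2) hp.out.ne_zero
    · exact h2
  refine ⟨⟨y', hmem⟩, ?_⟩
  apply Subtype.ext
  rw [Subgroup.coe_pow]
  exact hpow.symm

/-- The hypothesis `hcover` of `KummerMap` from the class-group hypothesis `hCl`. -/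
theorem cover_of_hCl
    (hCl : ∀ x : (↥F)ˣ, (∀ P : Interface23.PrimeAway S ↥F,
        (p : ℤ) ∣ Interface23.ordAt ↥F P.1 x) →
      ∃ e ∈ (Interface23.divT S ↥F).ker, ∃ y : (↥F)ˣ, x = e * y ^ p)
    (x : (↥F)ˣ) (hx : x ∈ selSub (R := 𝓞 ↥F) (K := ↥F) (primesAboveS S ↥F) p) :
    ∃ e : ↥(Interface23.divT S ↥F).ker, ∃ g : (↥F)ˣ,
      (((x : (↥F)ˣ) : ↥F) : Qbar) =
        ((iotaU S F e : Qbarˣ) : Qbar) * (((g : (↥F)ˣ) : ↥F) : Qbar) ^ p := by
  have h1 : ∀ P : Interface23.PrimeAway S ↥F, (p : ℤ) ∣ Interface23.ordAt ↥F P.1 x := by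
    intro P
    rw [ClassKillCT15.ordAt_eq_neg_toAdd, dvd_neg]
    apply hx P.1
    rintro ⟨q, hq, hmem⟩
    apply P.2 q hq
    rw [Int.cast_natCast]
    exact hmem
  obtain ⟨e, he, y, hxy⟩ := hCl x h1
  refine ⟨⟨e, he⟩, y, ?_⟩
  rw [hxy, coe_iotaU]
  push_cast
  rfl

/-- `E/p` is finite-dimensional (Dirichlet's `S`-unit theorem). -/
instance finite_EmodP :
    Module.Finite (ZMod p) (ZMod p ⊗[ℤ] Additive ↥(Interface23.divT S ↥F).ker) := by
  haveI : Module.Finite ℤ (Additive ↥(Interface23.divT S ↥F).ker) := by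
    rw [UnitsBridge24.ker_divT]
    infer_instance
  infer_instance

/-! ### The main theorem -/

/-- **C3-T4a: the Kummer upper bound** `dim H¹_S(H, W) ≤ dim Hom_H(W^*, E_S(F)/p)` for an arbitrary
subgroup `H ≤ Γ` containing `Gal(ℚ̄/F)` with index prime to `p`. -/
theorem finrank_H1_le_subgroup {p : ℕ} [hp : Fact p.Prime] (S : Finset Nat.Primes)
    (F : IntermediateField ℚ Qbar) [FiniteDimensional ℚ F] [IsGalois ℚ F] (H : Subgroup Γ)
    (hle : F.fixingSubgroup ≤ H) (hF : F.IsUnramifiedOutside S)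
    {ζ : Qbar} (hζ : IsPrimitiveRoot ζ p) (hζF : ζ ∈ F)
    (hcop : (F.fixingSubgroup.subgroupOf H).index.Coprime p)
    (hCl : ∀ x : (↥F)ˣ, (∀ P : Interface23.PrimeAway S ↥F,
        (p : ℤ) ∣ Interface23.ordAt ↥F P.1 x) →
      ∃ e ∈ (Interface23.divT S ↥F).ker, ∃ y : (↥F)ˣ, x = e * y ^ p)
    (W : Rep.{0} (ZMod p) ↥H) [FiniteDimensional (ZMod p) W]
    (hW : ∀ n : ↥H, (n : Γ) ∈ F.fixingSubgroup → W.ρ n = 1) :
    Module.finrank (ZMod p)
        (LevelCoh28.H1 (LevelBridge13.pullBasisS H.subtype S) W) ≤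
      Module.finrank (ZMod p) (Representation.linHom
        (W.dualTwist ((ExtCitation.cycloChar p).comp H.subtype)).ρ
        (rhoUnitsH p S F H)).invariants :=
  letI := actHH S F H
  finrank_H1_le_of_unitModel S (iotaU S F) hle hF hζ hζF hcop (iotaU_mem S F)
    (iotaU_smul S F H) (cover_of_hCl p S F hCl) (exists_pow_eq_of_iotaU p S F) W hW

/-- **C3-T4a: the Kummer upper bound** `dim H¹(G_{K',S}, W) ≤ dim Hom_H(W^*, E_S(F)/p)`,
`H = Gal(ℚ̄/K')`. -/
theorem finrank_H1_le {p : ℕ} [hp : Fact p.Prime] (S : Finset Nat.Primes)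
    (F K' : IntermediateField ℚ Qbar) [FiniteDimensional ℚ F] [IsGalois ℚ F]
    (hle : K' ≤ F) (hF : F.IsUnramifiedOutside S)
    {ζ : Qbar} (hζ : IsPrimitiveRoot ζ p) (hζF : ζ ∈ F)
    (hcop : (F.fixingSubgroup.subgroupOf K'.fixingSubgroup).index.Coprime p)
    (hCl : ∀ x : (↥F)ˣ, (∀ P : Interface23.PrimeAway S ↥F,
        (p : ℤ) ∣ Interface23.ordAt ↥F P.1 x) →
      ∃ e ∈ (Interface23.divT S ↥F).ker, ∃ y : (↥F)ˣ, x = e * y ^ p)
    (W : Rep.{0} (ZMod p) ↥K'.fixingSubgroup) [FiniteDimensional (ZMod p) W]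
    (hW : ∀ n : ↥K'.fixingSubgroup, (n : Γ) ∈ F.fixingSubgroup → W.ρ n = 1) :
    Module.finrank (ZMod p)
        (LevelCoh28.H1 (LevelBridge13.pullBasisS K'.fixingSubgroup.subtype S) W) ≤
      Module.finrank (ZMod p) (Representation.linHom
        (W.dualTwist ((ExtCitation.cycloChar p).comp K'.fixingSubgroup.subtype)).ρ
        (rhoUnits p S F K')).invariants :=
  finrank_H1_le_subgroup S F K'.fixingSubgroup (IntermediateField.fixingSubgroup_antitone hle) hF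
    hζ hζF hcop hCl W hW

/-! ### The index hypothesis in terms of degrees -/

/-- `[Gal(ℚ̄/K') : Gal(ℚ̄/F)] · [K' : ℚ] = [F : ℚ]`. -/
theorem index_mul_finrank (F K' : IntermediateField ℚ Qbar) (hle : K' ≤ F) :
    (F.fixingSubgroup.subgroupOf K'.fixingSubgroup).index * Module.finrank ℚ K' =
      Module.finrank ℚ F := by
  rw [IntermediateField.finrank_eq_fixingSubgroup_index,
    IntermediateField.finrank_eq_fixingSubgroup_index]
  exact Subgroup.relIndex_mul_index (IntermediateField.fixingSubgroup_antitone hle)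

/-- The index hypothesis `hcop` holds as soon as `[F : ℚ] = m · [K' : ℚ]` with `m` prime to `p`. -/
theorem index_coprime_of_finrank_eq (F K' : IntermediateField ℚ Qbar) [FiniteDimensional ℚ F]
    (hle : K' ≤ F) {m : ℕ} (hm : Module.finrank ℚ F = m * Module.finrank ℚ K')
    {p : ℕ} (hmp : m.Coprime p) :
    (F.fixingSubgroup.subgroupOf K'.fixingSubgroup).index.Coprime p := by
  have h1 := index_mul_finrank F K' hle
  rw [hm] at h1
  haveI : FiniteDimensional ℚ K' := by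
    have hle' : K'.toSubalgebra.toSubmodule ≤ F.toSubalgebra.toSubmodule := fun x hx => hle hx
    exact Submodule.finiteDimensional_of_le hle'
  have hpos : 0 < Module.finrank ℚ K' := Module.finrank_pos
  have h2 := Nat.eq_of_mul_eq_mul_right hpos h1
  rw [h2]
  exact hmp

end Fermat.Agent.TW.TateKum22.Units
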