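/-
Programme TW (S56), brick C3-T4a (helper22), file 8: the Kummer upper bound in the vocabulary of the
Shapiro bridge `TateShap6` (helper6, brick C3-T3).

`F/ℚ` finite Galois unramified outside `S`, `ζ_p ∈ F`, `D = Gal(F/ℚ)`, `π : Γ → D`, `C ≤ D` of order
prime to `p`, `σ : Representation (ZMod p) C W`, `H = π⁻¹ C`, `WH = σ ∘ (H → C)`.  For every
character `χC : C →* (ZMod p)ˣ` lifting to the mod `p` cyclotomic character on `H`:

  `dim H¹_S(H, WH) ≤ dim Hom_C(σ.dual.twist χC, E_S(F)/p)`,

and therefore the same bound for `H¹(G_S, Ind_C^D σ)` (inflated to `Γ`).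
-/
import Mathlib
import Fermat.Agent.TW.TateKum22.Units
import Fermat.Agent.TW.TateShap6.Main
import Fermat.Agent.PT.BR.DualTwist7

set_option autoImplicit false
set_option linter.style.haveILetI false
set_option linter.unusedSectionVars false
set_option synthInstance.maxHeartbeats 200000

namespace Fermat.Agent.TW.TateKum22.Coind

open TensorProduct
open Fermat.Agent.PT.GLOB Fermat.Agent.PT.PRO Fermat.Agent.PT.BR Fermat.Agent.PT.BR.LevelBridge13
open Fermat.Agent.TW.TateKum22.KummerMap Fermat.Agent.TW.TateKum22.Units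
open Fermat.Agent.TW.TateShap6.Main

local notation "Qbar" => AlgebraicClosure ℚ
local notation "Γ" => (AlgebraicClosure ℚ ≃ₐ[ℚ] AlgebraicClosure ℚ)

local instance isAlgClosureQbarC22 : IsAlgClosure ℚ Qbar := ⟨inferInstance, inferInstance⟩
local instance normalQbarC22 : Normal ℚ Qbar := IsAlgClosure.normal ℚ Qbar
local instance isGaloisQbarC22 : IsGalois ℚ Qbar := IsAlgClosure.isGalois ℚ Qbar

variable {p : ℕ} [hp : Fact p.Prime] (S : Finset Nat.Primes) (F : IntermediateField ℚ Qbar)
  [FiniteDimensional ℚ F] [IsGalois ℚ F]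
  (C : Subgroup (↥F ≃ₐ[ℚ] ↥F)) {W : Type} [AddCommGroup W] [Module (ZMod p) W]
  (σ : Representation (ZMod p) C W)

/-- `H → C`. -/
noncomputable abbrev piC : ↥(grpH F C) →* ↥C := (resF F).subgroupComap C

theorem piC_surjective : Function.Surjective (piC F C) :=
  MonoidHom.subgroupComap_surjective_of_surjective _ _ (resF_surjective F)

theorem fixingSubgroup_le_grpH : F.fixingSubgroup ≤ grpH F C := by
  intro s hs
  rw [← resF_ker F, MonoidHom.mem_ker] at hs
  show resF F s ∈ C
  rw [hs]
  exact C.one_mem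

theorem ker_piC : (piC F C).ker = F.fixingSubgroup.subgroupOf (grpH F C) := by
  ext h
  rw [MonoidHom.mem_ker, Subgroup.mem_subgroupOf, ← resF_ker F, MonoidHom.mem_ker]
  constructor
  · intro h1
    exact congrArg Subtype.val h1
  · intro h1
    exact Subtype.ext h1

theorem index_eq_card : (F.fixingSubgroup.subgroupOf (grpH F C)).index = Nat.card C := by
  rw [← ker_piC, Subgroup.index_ker, MonoidHom.range_eq_top.mpr (piC_surjective F C)]
  exact Nat.card_congr (Subgroup.topEquiv (G := ↥C)).toEquiv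

theorem modWH_ρ_eq_one (n : ↥(grpH F C)) (hn : (n : Γ) ∈ F.fixingSubgroup) :
    (modWH F C σ).ρ n = 1 := by
  have h1 : piC F C n = 1 := by
    have : n ∈ (piC F C).ker := by
      rw [ker_piC, Subgroup.mem_subgroupOf]
      exact hn
    exact this
  show σ (piC F C n) = 1
  rw [h1, map_one]

/-- Invariants of `Hom` only depend on the image of the group. -/
theorem invariants_linHom_comp {k G G' V V' : Type*} [CommRing k] [Group G] [Group G']
    [AddCommGroup V] [Module k V] [AddCommGroup V'] [Module k V'] (f : G →* G')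
    (hf : Function.Surjective f) (ρV : Representation k G' V) (ρV' : Representation k G' V') :
    (Representation.linHom (ρV.comp f) (ρV'.comp f)).invariants =
      (Representation.linHom ρV ρV').invariants := by
  have key : ∀ (g : G) (φ : V →ₗ[k] V'),
      Representation.linHom (ρV.comp f) (ρV'.comp f) g φ =
        Representation.linHom ρV ρV' (f g) φ := by
    intro g φ
    rw [Representation.linHom_apply, Representation.linHom_apply, MonoidHom.comp_apply,
      MonoidHom.comp_apply, map_inv]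
  ext φ
  rw [Representation.mem_invariants, Representation.mem_invariants]
  constructor
  · intro h c
    obtain ⟨g, rfl⟩ := hf c
    rw [← key]
    exact h g
  · intro h g
    rw [key]
    exact h (f g)

/-- The Tate dual of `WH` is inflated from the Tate dual of `σ`. -/
theorem dualTwist_modWH_ρ (χC : ↥C →* (ZMod p)ˣ)
    (hχ : ∀ h : ↥(grpH F C), χC (piC F C h) = ExtCitation.cycloChar p (h : Γ)) :
    ((modWH F C σ).dualTwist ((ExtCitation.cycloChar p).comp (grpH F C).subtype)).ρ =
      (σ.dual.twist χC).comp (piC F C) := by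
  apply MonoidHom.ext
  intro g
  apply LinearMap.ext
  intro l
  rw [Rep.dualTwist_ρ_apply]
  show _ = (σ.dual.twist χC) (piC F C g) l
  rw [Representation.twist_apply_apply, hχ, Representation.dual_apply, ← map_inv (piC F C)]
  rfl

theorem rhoUnitsH_grpH :
    rhoUnitsH p S F (grpH F C) = ((rhoUnitsD p S F).comp C.subtype).comp (piC F C) := rfl

variable [Module.Finite (ZMod p) W]

/-- **Kummer upper bound in the vocabulary of the Shapiro bridge.** -/
theorem finrank_H1_modWH_le (hcard : (Nat.card C).Coprime p) (hF : F.IsUnramifiedOutside S)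
    {ζ : Qbar} (hζ : IsPrimitiveRoot ζ p) (hζF : ζ ∈ F)
    (hCl : ∀ x : (↥F)ˣ, (∀ P : Interface23.PrimeAway S ↥F,
        (p : ℤ) ∣ Interface23.ordAt ↥F P.1 x) →
      ∃ e ∈ (Interface23.divT S ↥F).ker, ∃ y : (↥F)ˣ, x = e * y ^ p)
    (χC : ↥C →* (ZMod p)ˣ)
    (hχ : ∀ h : ↥(grpH F C), χC (piC F C h) = ExtCitation.cycloChar p (h : Γ)) :
    Module.finrank (ZMod p) (LevelCoh28.H1 (basisH S F C) (modWH F C σ)) ≤
      Module.finrank (ZMod p) (Representation.linHom (σ.dual.twist χC)
        ((rhoUnitsD p S F).comp C.subtype)).invariants := by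
  haveI : FiniteDimensional (ZMod p) (modWH F C σ) :=
    inferInstanceAs (FiniteDimensional (ZMod p) W)
  have h := finrank_H1_le_subgroup S F (grpH F C) (fixingSubgroup_le_grpH F C) hF hζ hζF
    (by rw [index_eq_card]; exact hcard) hCl (modWH F C σ) (modWH_ρ_eq_one F C σ)
  rw [dualTwist_modWH_ρ F C σ χC hχ, rhoUnitsH_grpH,
    invariants_linHom_comp (piC F C) (piC_surjective F C)] at h
  exact h

/-- **Kummer upper bound for `H¹(G_S, Ind_C^D σ)`.** -/
theorem finrank_H1g_modM_le (hcard : (Nat.card C).Coprime p) (hF : F.IsUnramifiedOutside S)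
    {ζ : Qbar} (hζ : IsPrimitiveRoot ζ p) (hζF : ζ ∈ F)
    (hCl : ∀ x : (↥F)ˣ, (∀ P : Interface23.PrimeAway S ↥F,
        (p : ℤ) ∣ Interface23.ordAt ↥F P.1 x) →
      ∃ e ∈ (Interface23.divT S ↥F).ker, ∃ y : (↥F)ˣ, x = e * y ^ p)
    (χC : ↥C →* (ZMod p)ˣ)
    (hχ : ∀ h : ↥(grpH F C), χC (piC F C h) = ExtCitation.cycloChar p (h : Γ)) :
    Module.finrank (ZMod p) (LevelCoh28.H1 (globalBasis S) (modM F C σ)) ≤
      Module.finrank (ZMod p) (Representation.linHom (σ.dual.twist χC)
        ((rhoUnitsD p S F).comp C.subtype)).invariants := by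
  rw [(h1Equiv S F C σ hF).finrank_eq]
  exact finrank_H1_modWH_le S F C σ hcard hF hζ hζF hCl χC hχ

/-! ### The cyclotomic character of `Gal(F/ℚ)` and the final form -/

section Cyclo

variable (hζ' : ∀ γ ∈ F.fixingSubgroup, ExtCitation.cycloChar p γ = 1)

/-- The mod `p` cyclotomic character of `Gal(F/ℚ)` (`F ∋ ζ_p`). -/
noncomputable def cycloD : (↥F ≃ₐ[ℚ] ↥F) →* (ZMod p)ˣ :=
  (resF F).liftOfSurjective (resF_surjective F) ⟨ExtCitation.cycloChar p, fun γ hγ => by
    rw [resF_ker] at hγ
    exact MonoidHom.mem_ker.mpr (hζ' γ hγ)⟩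

theorem cycloD_resF (g : Γ) : cycloD F hζ' (resF F g) = ExtCitation.cycloChar p g :=
  MonoidHom.liftOfRightInverse_comp_apply _ _ _ _ g

include hζ' in
theorem zeta_mem : Fermat.Agent.S14.Fields.zeta p ∈ F := by
  rw [← InfiniteGalois.fixedField_fixingSubgroup (k := ℚ) (K := Qbar) F,
    IntermediateField.mem_fixedField_iff]
  intro s hs
  exact (Fermat.Agent.PT.BR.DualTwist7.cycloChar_eq_one_iff p).mp (hζ' s hs)

/-- **Kummer upper bound for `H¹(G_S, Ind_C^D σ)`**, with the cyclotomic character of `Gal(F/ℚ)`: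
`dim H¹(G_S, Ind_C^D σ) ≤ dim Hom_C(σ^*(1), E_S(F)/p)`. -/
theorem finrank_H1g_le (hcard : (Nat.card C).Coprime p) (hF : F.IsUnramifiedOutside S)
    (hCl : ∀ x : (↥F)ˣ, (∀ P : Interface23.PrimeAway S ↥F,
        (p : ℤ) ∣ Interface23.ordAt ↥F P.1 x) →
      ∃ e ∈ (Interface23.divT S ↥F).ker, ∃ y : (↥F)ˣ, x = e * y ^ p) :
    Module.finrank (ZMod p) (LevelCoh28.H1 (globalBasis S)
        (Rep.of ((Representation.coind C.subtype σ).comp (AlgEquiv.restrictNormalHom F)) :
          Rep.{0} (ZMod p) Γ)) ≤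
      Module.finrank (ZMod p) (Representation.linHom
        (σ.dual.twist ((cycloD F hζ').comp C.subtype))
        ((rhoUnitsD p S F).comp C.subtype)).invariants :=
  finrank_H1g_modM_le S F C σ hcard hF (Fermat.Agent.S14.Fields.zeta_spec p) (zeta_mem F hζ') hCl
    ((cycloD F hζ').comp C.subtype) (fun h => cycloD_resF F hζ' (h : Γ))

end Cyclo

end Fermat.Agent.TW.TateKum22.Coind
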