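/-
Programme TW (S56), brick C3-T4a (helper22), file 1: restriction of 1-cocycles to a normal
subgroup of finite index prime to `p` acting trivially (pure group theory).

`G` a group, `N ⊴ G` of finite index `m` with `(m : k)` invertible, `ρ : Representation k G W`
trivial on `N`, `c : G → W` a 1-cocycle (`c (g * h) = c g + ρ g (c h)`).

* `cocycle_mul_of_mem`   : `c` is additive on `N`;
* `cocycle_conj`         : `c (g * n * g⁻¹) = ρ g (c n)` for `n ∈ N`;
* `exists_coboundary_of_vanish` : if `c` vanishes on `N` then `c` is a coboundary.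
-/
import Mathlib

set_option autoImplicit false
set_option linter.style.haveILetI false

namespace Fermat.Agent.TW.TateKum22.Restrict

variable {k : Type*} [CommRing k] {G : Type*} [Group G] {W : Type*} [AddCommGroup W] [Module k W]
  (ρ : Representation k G W) (N : Subgroup G) (c : G → W)

theorem cocycle_one (hc : ∀ g h : G, c (g * h) = c g + ρ g (c h)) : c 1 = 0 := by
  have h := hc 1 1
  rw [mul_one, map_one, Module.End.one_apply] at h
  exact add_eq_left.mp h.symm

theorem cocycle_mul_of_mem (hN : ∀ n ∈ N, ρ n = 1)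
    (hc : ∀ g h : G, c (g * h) = c g + ρ g (c h)) {n : G} (hn : n ∈ N) (h : G) :
    c (n * h) = c n + c h := by
  rw [hc, hN n hn, Module.End.one_apply]

theorem cocycle_inv (hc : ∀ g h : G, c (g * h) = c g + ρ g (c h)) (g : G) :
    ρ g (c g⁻¹) = - c g := by
  have h := hc g g⁻¹
  rw [mul_inv_cancel, cocycle_one ρ c hc] at h
  exact (neg_eq_of_add_eq_zero_right h.symm).symm

theorem cocycle_conj (hN : ∀ n ∈ N, ρ n = 1)
    (hc : ∀ g h : G, c (g * h) = c g + ρ g (c h)) (g : G) {n : G} (hn : n ∈ N) :
    c (g * n * g⁻¹) = ρ g (c n) := by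
  rw [mul_assoc, hc g (n * g⁻¹), cocycle_mul_of_mem ρ N c hN hc hn, map_add,
    cocycle_inv ρ c hc g]
  abel

/-- If `c` vanishes on `N`, it is constant on left cosets of `N`. -/
theorem cocycle_mul_right_of_vanish (hc : ∀ g h : G, c (g * h) = c g + ρ g (c h))
    (h0 : ∀ n ∈ N, c n = 0) (g : G) {n : G} (hn : n ∈ N) : c (g * n) = c g := by
  rw [hc, h0 n hn, map_zero, add_zero]

/-- **Averaging**: a cocycle vanishing on a normal subgroup `N` of finite index invertible in `k`
(acting trivially) is a coboundary. -/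
theorem exists_coboundary_of_vanish [N.Normal] [N.FiniteIndex]
    (hc : ∀ g h : G, c (g * h) = c g + ρ g (c h)) (h0 : ∀ n ∈ N, c n = 0)
    {u : k} (hu : u * (N.index : k) = 1) :
    ∃ w : W, ∀ g : G, c g = ρ g w - w := by
  classical
  haveI : Finite (G ⧸ N) := Subgroup.finite_quotient_of_finiteIndex
  haveI : Fintype (G ⧸ N) := Fintype.ofFinite _
  -- `c` and `ρ` descend to the quotient
  let cbar : G ⧸ N → W := Quotient.lift c (by
    intro a b hab
    have hab' : a⁻¹ * b ∈ N := QuotientGroup.leftRel_apply.mp hab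
    have := cocycle_mul_right_of_vanish ρ N c hc h0 a hab'
    rw [mul_inv_cancel_left] at this
    exact this.symm)
  have hcbar : ∀ g : G, cbar (QuotientGroup.mk g) = c g := fun g => rfl
  set a : W := ∑ x : G ⧸ N, cbar x with ha
  have hsum : ∀ g : G, a = (N.index : k) • c g + ρ g a := by
    intro g
    have h1 : ∑ x : G ⧸ N, cbar ((QuotientGroup.mk g : G ⧸ N) * x) = a :=
      Equiv.sum_comp (Equiv.mulLeft (QuotientGroup.mk g : G ⧸ N)) cbar
    have h2 : ∀ x : G ⧸ N, cbar ((QuotientGroup.mk g : G ⧸ N) * x) = c g + ρ g (cbar x) := by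
      intro x
      induction x using QuotientGroup.induction_on with
      | H y => rw [← QuotientGroup.mk_mul, hcbar, hcbar, hc]
    have h5 : ∑ x : G ⧸ N, cbar ((QuotientGroup.mk g : G ⧸ N) * x)
        = (N.index : k) • c g + ρ g a := by
      simp_rw [h2]
      rw [Finset.sum_add_distrib, Finset.sum_const, Finset.card_univ, ← map_sum,
        ← Nat.card_eq_fintype_card, ← Subgroup.index_eq_card, Nat.cast_smul_eq_nsmul]
    exact h1.symm.trans h5
  refine ⟨-(u • a), fun g => ?_⟩
  have h3 := hsum g
  have h4 : c g = u • (a - ρ g a) := by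
    have : (N.index : k) • c g = a - ρ g a := by
      rw [eq_sub_iff_add_eq]; exact h3.symm
    rw [← this, smul_smul, hu, one_smul]
  rw [h4, map_neg, map_smul, smul_sub]
  abel

end Fermat.Agent.TW.TateKum22.Restrict
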