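/-
Programme TW (S56), brick C3-T4a (helper22), file 4: the shape-independent core of the Kummer
upper bound  `h¹(G, W) ≤ dim Hom_G(W^*, X)`.

`G` a group with a level basis `𝓑`, `N ⊴ G` of finite index invertible in the field `k`,
`W : Rep k G` trivial on `N`, `ω : G →* kˣ`, `X` a finite-dimensional `k`-representation of `G`
and `κ : X →ₗ[k] (N → k)` ("Kummer map") which is
* injective,
* onto the additive level characters of `N`,
* equivariant: `κ (g x) n = ω g * κ x (g⁻¹ n g)`.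
Then `dim H¹_𝓑(G, W) ≤ dim Hom_G(W.dualTwist ω, X)`.

The map: for a level cocycle `c` and `λ ∈ W^*`, `λ ∘ c|_N` is an additive level character of `N`,
hence `= κ x` for a unique `x =: Φ(c)(λ)`.  `Φ(c)` is `G`-equivariant by the cocycle relation, and
`Φ(c) = 0` iff `c|_N = 0` iff `c` is a coboundary (averaging over `G/N`).
-/
import Mathlib
import Fermat.Prelude.Def_GroupCohomology_Selmer
import Fermat.Agent.PT.PRO.LevelCoh28
import Fermat.Agent.TW.TateKum22.Restrict

set_option autoImplicit false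
set_option linter.style.haveILetI false
set_option linter.unusedSectionVars false

universe u

namespace Fermat.Agent.TW.TateKum22.Core

open Fermat.Agent.PT.PRO Fermat.Agent.TW.TateKum22.Restrict groupCohomology

variable {k G : Type u} [Field k] [Group G] (𝓑 : LevelCoh28.LevelBasis G) (W : Rep.{u} k G)
  (N : Subgroup G)

/-- Additive characters of `N` vanishing on `N ∩ U` for some member `U` of the level basis. -/
def IsLevelChar (χ : ↥N → k) : Prop :=
  (∀ a b : ↥N, χ (a * b) = χ a + χ b) ∧ ∃ U ∈ 𝓑.sets, ∀ n : ↥N, (n : G) ∈ U → χ n = 0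

/-- `c ↦ (λ ↦ λ ∘ c|_N)`. -/
def Psi₀ : (G → W) →ₗ[k] (Module.Dual k W →ₗ[k] (↥N → k)) :=
  LinearMap.mk₂ k (fun c l n => l (c (n : G)))
    (fun c c' l => by funext n; simp)
    (fun r c l => by funext n; simp)
    (fun c l l' => by funext n; simp)
    (fun r c l => by funext n; simp)

@[simp] theorem Psi₀_apply (c : G → W) (l : Module.Dual k W) (n : ↥N) :
    Psi₀ W N c l n = l (c (n : G)) := rfl

/-- `Psi₀` restricted to level cocycles. -/
def Psi : ↥(LevelCoh28.Z1 𝓑 W) →ₗ[k] (Module.Dual k W →ₗ[k] (↥N → k)) :=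
  (Psi₀ W N).comp (LevelCoh28.Z1 𝓑 W).subtype

@[simp] theorem Psi_apply (c : ↥(LevelCoh28.Z1 𝓑 W)) (l : Module.Dual k W) (n : ↥N) :
    Psi 𝓑 W N c l n = l ((c : G → W) (n : G)) := rfl

variable {𝓑 W N}

theorem cocycle_of_mem_Z1 {c : G → W} (hc : c ∈ LevelCoh28.Z1 𝓑 W) (g h : G) :
    c (g * h) = c g + W.ρ g (c h) := by
  have := (mem_cocycles₁_iff c).1 hc.1 g h
  rw [this, add_comm]

theorem isLevelChar_of_mem_Z1 (hW : ∀ n ∈ N, W.ρ n = 1) {c : G → W}
    (hc : c ∈ LevelCoh28.Z1 𝓑 W) (l : Module.Dual k W) :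
    IsLevelChar 𝓑 N (fun n => l (c (n : G))) := by
  refine ⟨fun a b => ?_, ?_⟩
  · show l (c ((a : G) * (b : G))) = _
    rw [cocycle_mul_of_mem W.ρ N c hW (cocycle_of_mem_Z1 hc) a.2, map_add]
  · obtain ⟨U, hU, hinv⟩ := hc.2
    refine ⟨U, hU, fun n hn => ?_⟩
    have h1 := hinv 1 (n : G) hn
    rw [one_mul, cocycle_one W.ρ c (cocycle_of_mem_Z1 hc)] at h1
    show l (c (n : G)) = 0
    rw [h1, map_zero]

/-- The kernel of `Psi` is the space of coboundaries. -/
theorem ker_Psi [N.Normal] [N.FiniteIndex] (hW : ∀ n ∈ N, W.ρ n = 1)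
    (hidx : (N.index : k) ≠ 0) :
    LinearMap.ker (Psi 𝓑 W N) = (coboundaries₁ W).comap (LevelCoh28.Z1 𝓑 W).subtype := by
  ext c
  rw [LinearMap.mem_ker, Submodule.mem_comap, Submodule.subtype_apply]
  constructor
  · intro h
    have h0 : ∀ n ∈ N, (c : G → W) n = 0 := by
      intro n hn
      rw [← Module.forall_dual_apply_eq_zero_iff k]
      intro l
      have := congrFun (LinearMap.congr_fun h l) ⟨n, hn⟩
      simpa using this
    obtain ⟨w, hw⟩ := exists_coboundary_of_vanish W.ρ N (c : G → W) (cocycle_of_mem_Z1 c.2) h0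
      (inv_mul_cancel₀ hidx)
    refine ⟨w, ?_⟩
    funext g
    rw [d₀₁_hom_apply, hw g]
  · rintro ⟨w, hw⟩
    apply LinearMap.ext
    intro l
    funext n
    rw [Psi_apply, ← hw, d₀₁_hom_apply, hW n n.2, Module.End.one_apply, sub_self, map_zero]
    rfl

variable (ω : G →* kˣ) {X : Type u} [AddCommGroup X] [Module k X] (ρX : Representation k G X)
  (κ : X →ₗ[k] (↥N → k))

/-- For every level cocycle `c` there is an equivariant `φ : W^* → X` with `κ ∘ φ = (λ ↦ λ ∘ c|_N)`. -/
theorem exists_invariant_lift [N.Normal] (hW : ∀ n ∈ N, W.ρ n = 1)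
    (hκinj : Function.Injective κ)
    (hκsurj : ∀ χ : ↥N → k, IsLevelChar 𝓑 N χ → ∃ x, κ x = χ)
    (hκeq : ∀ (g : G) (x : X) (n m : ↥N), (m : G) = g⁻¹ * n * g →
      κ (ρX g x) n = (ω g : k) * κ x m)
    (c : ↥(LevelCoh28.Z1 𝓑 W)) :
    ∃ φ ∈ (Representation.linHom (W.dualTwist ω).ρ ρX).invariants,
      LinearMap.compRight k κ φ = Psi 𝓑 W N c := by
  have hmem : ∀ l : Module.Dual k W, Psi 𝓑 W N c l ∈ LinearMap.range κ := fun l => by
    obtain ⟨x, hx⟩ := hκsurj _ (isLevelChar_of_mem_Z1 hW c.2 l)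
    exact ⟨x, hx⟩
  let e := LinearEquiv.ofInjective κ hκinj
  let φ : Module.Dual k W →ₗ[k] X :=
    e.symm.toLinearMap.comp ((Psi 𝓑 W N c).codRestrict (LinearMap.range κ) hmem)
  have hφ : ∀ l, κ (φ l) = Psi 𝓑 W N c l := by
    intro l
    have h1 : e (φ l) = (Psi 𝓑 W N c).codRestrict (LinearMap.range κ) hmem l :=
      e.apply_symm_apply _
    have h2 := congrArg Subtype.val h1
    simpa [e] using h2
  refine ⟨φ, ?_, ?_⟩
  · rw [Representation.mem_invariants]
    intro g
    apply LinearMap.ext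
    intro l
    apply hκinj
    funext n
    rw [Representation.linHom_apply, LinearMap.comp_apply, LinearMap.comp_apply]
    have hm : g⁻¹ * (n : G) * g ∈ N := by
      have := (inferInstance : N.Normal).conj_mem (n : G) n.2 g⁻¹
      simpa using this
    rw [hκeq g _ n ⟨_, hm⟩ rfl, hφ, hφ, Psi_apply, Psi_apply]
    -- `(W.dualTwist ω).ρ g⁻¹ l = ω g⁻¹ • (l ∘ W.ρ g)`
    rw [Rep.dualTwist_ρ_apply, inv_inv]
    have hconj : (c : G → W) (g⁻¹ * (n : G) * g) = W.ρ g⁻¹ ((c : G → W) n) := by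
      have := cocycle_conj W.ρ N (c : G → W) hW (cocycle_of_mem_Z1 c.2) g⁻¹ n.2
      rwa [inv_inv] at this
    show (ω g : k) * ((ω g⁻¹ : k) • (l ∘ₗ W.ρ g)) ((c : G → W) (g⁻¹ * (n : G) * g)) = _
    rw [hconj, LinearMap.smul_apply, LinearMap.comp_apply, ← Module.End.mul_apply, ← map_mul,
      mul_inv_cancel, map_one, Module.End.one_apply, smul_eq_mul, ← mul_assoc, ← Units.val_mul,
      ← map_mul, mul_inv_cancel, map_one, Units.val_one, one_mul]
  · apply LinearMap.ext
    intro l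
    exact hφ l

/-- **The Kummer upper bound, abstract form.** -/
theorem finrank_H1_le [N.Normal] [N.FiniteIndex] [FiniteDimensional k W] [FiniteDimensional k X]
    (hW : ∀ n ∈ N, W.ρ n = 1) (hidx : (N.index : k) ≠ 0)
    (hκinj : Function.Injective κ)
    (hκsurj : ∀ χ : ↥N → k, IsLevelChar 𝓑 N χ → ∃ x, κ x = χ)
    (hκeq : ∀ (g : G) (x : X) (n m : ↥N), (m : G) = g⁻¹ * n * g →
      κ (ρX g x) n = (ω g : k) * κ x m) :
    Module.finrank k (LevelCoh28.H1 𝓑 W) ≤
      Module.finrank k (Representation.linHom (W.dualTwist ω).ρ ρX).invariants := by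
  set I := (Representation.linHom (W.dualTwist ω).ρ ρX).invariants with hI
  have hcinj : Function.Injective (LinearMap.compRight k κ (M := Module.Dual k W)) := by
    intro a b hab
    apply LinearMap.ext
    intro l
    exact hκinj (LinearMap.congr_fun hab l)
  set J := I.map (LinearMap.compRight k κ (M := Module.Dual k W)) with hJ
  have hJI : Module.finrank k J = Module.finrank k I :=
    (LinearEquiv.finrank_eq (Submodule.equivMapOfInjective _ hcinj I)).symm
  have hrange : LinearMap.range (Psi 𝓑 W N) ≤ J := by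
    rintro _ ⟨c, rfl⟩
    obtain ⟨φ, hφI, hφ⟩ := exists_invariant_lift ω ρX κ hW hκinj hκsurj hκeq c
    exact ⟨φ, hφI, hφ⟩
  have hH1 : Module.finrank k (LevelCoh28.H1 𝓑 W) =
      Module.finrank k (LinearMap.range (Psi 𝓑 W N)) := by
    refine LinearEquiv.finrank_eq ?_
    exact (Submodule.quotEquivOfEq _ _ (ker_Psi hW hidx).symm).trans
      (Psi 𝓑 W N).quotKerEquivRange
  rw [hH1, ← hJI]
  exact Submodule.finrank_mono hrange

end Fermat.Agent.TW.TateKum22.Core
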